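import Mathlib

/-!
# Maximal-order criterion by duality (row N5' of "special fibre normal")

`W` a domain, `t : W` a prime element, `D` a `W`-algebra, free with basis `b`.  Suppose there are
"`t`-dual" elements `c j ∈ D`, i.e. `trace (c j * b k) = t` if `j = k` and `0` otherwise, which
are nilpotent modulo `t`.  Then `D` has no proper finite free over-order of the same rank:
every injective `W`-algebra map `i : D → D'` into a finite free `W`-algebra of the same rank is
surjective.

Proof (no ranks of reductions, no discriminants of over-orders): for `y ∈ D'`, some nonzero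
multiple `w • y` lies in the image, `w • y = i (∑ a k • b k)`; the element `y * i (c j)` is
nilpotent modulo `t`, so its trace is divisible by `t`; hence
`t * a j = trace (w • y * i (c j)) ∈ w * t * W`, i.e. `w ∣ a j`.
-/

set_option autoImplicit false

open Matrix

namespace Fermat.Agent.S30.Normal.Dual

/-- The trace of an element which is nilpotent modulo the prime `t` is divisible by `t`. -/
theorem dvd_trace_of_dvd_pow {W D' : Type*} [CommRing W] {t : W} (ht : Prime t)
    [CommRing D'] [Algebra W D'] [Module.Free W D'] [Module.Finite W D'] (y : D') (k : ℕ)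
    (h : algebraMap W D' t ∣ y ^ k) : t ∣ Algebra.trace W D' y := by
  classical
  obtain ⟨z, hz⟩ := h
  let b' := Module.Free.chooseBasis W D'
  have hM : (Algebra.leftMulMatrix b' y) ^ k = t • Algebra.leftMulMatrix b' z := by
    rw [← map_pow, hz, ← Algebra.smul_def, map_smul]
  have hprime : (Ideal.span {t}).IsPrime := (Ideal.span_singleton_prime ht.ne_zero).mpr ht
  set f := Ideal.Quotient.mk (Ideal.span {t}) with hf
  have hft : f t = 0 := Ideal.Quotient.eq_zero_iff_mem.mpr (Ideal.mem_span_singleton_self t)
  have hnil : IsNilpotent (f.mapMatrix (Algebra.leftMulMatrix b' y)) := by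
    refine ⟨k, ?_⟩
    rw [← map_pow, hM]
    ext i j
    simp [RingHom.mapMatrix_apply, Matrix.map_apply, Matrix.smul_apply, hft]
  have h0 := Matrix.isNilpotent_trace_of_isNilpotent hnil
  have h1 : (f.mapMatrix (Algebra.leftMulMatrix b' y)).trace = 0 :=
    isNilpotent_iff_eq_zero.mp h0
  have h2 : f ((Algebra.leftMulMatrix b' y).trace) = 0 := by
    rw [← h1]
    simp [Matrix.trace, map_sum, RingHom.mapMatrix_apply]
  rw [Algebra.trace_eq_matrix_trace b']
  exact Ideal.mem_span_singleton.mp (Ideal.Quotient.eq_zero_iff_mem.mp h2)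

section Lattice

variable {W : Type*} [CommRing W] [IsDomain W]
  {D : Type*} [CommRing D] [Algebra W D] {ι : Type*} [Fintype ι] [DecidableEq ι]
  {D' : Type*} [CommRing D'] [Algebra W D']

/-- The matrix of an injective linear map between free modules of the same finite rank over a
domain has nonzero determinant. -/
theorem det_toMatrix_ne_zero (b : Module.Basis ι W D) (b' : Module.Basis ι W D')
    (i : D →ₐ[W] D') (hi : Function.Injective i) :
    (LinearMap.toMatrix b b' i.toLinearMap).det ≠ 0 := by
  intro h
  obtain ⟨v, hv0, hv⟩ := Matrix.exists_mulVec_eq_zero_iff.mpr h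
  apply hv0
  have h1 : (⇑(b.repr (∑ k, v k • b k)) : ι → W) = v := b.repr_sum_self v
  have h2 := LinearMap.toMatrix_mulVec_repr b b' i.toLinearMap (∑ k, v k • b k)
  rw [h1, hv] at h2
  have h3 : b'.repr (i.toLinearMap (∑ k, v k • b k)) = 0 := by
    ext k
    have := congrFun h2 k
    simpa using this.symm
  have h4 : i (∑ k, v k • b k) = 0 := by
    have := b'.repr.injective (h3.trans (map_zero _).symm)
    simpa using this
  have h5 : (∑ k, v k • b k) = 0 := hi (h4.trans (map_zero _).symm)
  rw [h5] at h1
  rw [← h1]
  ext k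
  simp

omit [IsDomain W] in
/-- Some nonzero multiple of every element of `D'` lies in the image of `D`. -/
theorem exists_smul_eq (b : Module.Basis ι W D) (b' : Module.Basis ι W D')
    (i : D →ₐ[W] D') (y : D') :
    i (∑ k, ((LinearMap.toMatrix b b' i.toLinearMap).adjugate *ᵥ ⇑(b'.repr y)) k • b k) =
      (LinearMap.toMatrix b b' i.toLinearMap).det • y := by
  set P := LinearMap.toMatrix b b' i.toLinearMap with hP
  set a : ι → W := P.adjugate *ᵥ ⇑(b'.repr y) with ha
  have h1 : (⇑(b.repr (∑ k, a k • b k)) : ι → W) = a := b.repr_sum_self a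
  have h2 := LinearMap.toMatrix_mulVec_repr b b' i.toLinearMap (∑ k, a k • b k)
  rw [h1, ← hP, ha, Matrix.mulVec_mulVec, Matrix.mul_adjugate, Matrix.smul_mulVec,
    Matrix.one_mulVec] at h2
  apply b'.repr.injective
  ext k
  have := congrFun h2 k
  simp only [Pi.smul_apply, smul_eq_mul] at this
  rw [map_smul, Finsupp.smul_apply, smul_eq_mul, this]
  rfl

/-- The trace is insensitive to passing to an over-order of the same rank. -/
theorem trace_eq_of_injective (b : Module.Basis ι W D) (b' : Module.Basis ι W D')
    (i : D →ₐ[W] D') (hi : Function.Injective i) (z : D) :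
    Algebra.trace W D' (i z) = Algebra.trace W D z := by
  set P := LinearMap.toMatrix b b' i.toLinearMap with hP
  have hdet : P.det ≠ 0 := det_toMatrix_ne_zero b b' i hi
  have hcomm : P * Algebra.leftMulMatrix b z = Algebra.leftMulMatrix b' (i z) * P := by
    rw [Algebra.leftMulMatrix_apply, Algebra.leftMulMatrix_apply, hP,
      ← LinearMap.toMatrix_comp b b b', ← LinearMap.toMatrix_comp b b' b']
    congr 1
    ext x
    simp
  have h1 : P.det • Algebra.leftMulMatrix b z =
      P.adjugate * (Algebra.leftMulMatrix b' (i z) * P) := by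
    rw [← hcomm, ← Matrix.mul_assoc, Matrix.adjugate_mul, Matrix.smul_mul, Matrix.one_mul]
  have h2 := congrArg Matrix.trace h1
  rw [Matrix.trace_smul, Matrix.trace_mul_comm, Matrix.mul_assoc, Matrix.mul_adjugate,
    Matrix.mul_smul, Matrix.mul_one, Matrix.trace_smul, smul_eq_mul, smul_eq_mul] at h2
  rw [Algebra.trace_eq_matrix_trace b, Algebra.trace_eq_matrix_trace b']
  exact (mul_left_cancel₀ hdet h2).symm

end Lattice

/-- **Maximal-order criterion by duality.**  A finite free algebra `D` over a domain `W` which
has `t`-dual elements `c j` (`trace (c j * b k) = t δ_{jk}`), nilpotent modulo the prime `t`,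
has no proper finite free over-order of the same rank. -/
theorem surjective_of_dual {W : Type*} [CommRing W] [IsDomain W] {t : W} (ht : Prime t)
    {D : Type*} [CommRing D] [Algebra W D] {ι : Type*} [Fintype ι] [DecidableEq ι]
    (b : Module.Basis ι W D) (c : ι → D)
    (hc : ∀ j k, Algebra.trace W D (c j * b k) = if j = k then t else 0)
    (hnil : ∀ j, ∃ k : ℕ, algebraMap W D t ∣ c j ^ k)
    {D' : Type*} [CommRing D'] [Algebra W D'] [Module.Free W D'] [Module.Finite W D']
    (i : D →ₐ[W] D') (hi : Function.Injective i)
    (hrank : Module.finrank W D' = Fintype.card ι) : Function.Surjective i := by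
  classical
  intro y
  let e : Fin (Fintype.card ι) ≃ ι := (Fintype.equivFin ι).symm
  let b' : Module.Basis ι W D' := (Module.finBasisOfFinrankEq W D' hrank).reindex e
  set P := LinearMap.toMatrix b b' i.toLinearMap with hP
  have hdet : P.det ≠ 0 := det_toMatrix_ne_zero b b' i hi
  set a : ι → W := P.adjugate *ᵥ ⇑(b'.repr y) with ha
  have hid : i (∑ k, a k • b k) = P.det • y := exists_smul_eq b b' i y
  -- traces of `y * i (c j)` are divisible by `t`
  have h1 : ∀ j, ∃ s : W, Algebra.trace W D' (y * i (c j)) = t * s := by
    intro j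
    obtain ⟨k, z, hz⟩ := hnil j
    have hdvd : algebraMap W D' t ∣ (y * i (c j)) ^ k := by
      refine ⟨y ^ k * i z, ?_⟩
      rw [mul_pow, ← map_pow, hz, map_mul, AlgHom.commutes]
      ring
    exact dvd_trace_of_dvd_pow ht _ k hdvd
  choose s hs using h1
  have h2 : ∀ j, Algebra.trace W D ((∑ k, a k • b k) * c j) = t * a j := by
    intro j
    rw [Finset.sum_mul, map_sum]
    have : ∀ k ∈ Finset.univ, Algebra.trace W D (a k • b k * c j) =
        if j = k then a k * t else 0 := by
      intro k _
      rw [smul_mul_assoc, map_smul, mul_comm (b k) (c j), hc j k, smul_eq_mul]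
      split_ifs <;> simp
    rw [Finset.sum_congr rfl this, Finset.sum_ite_eq Finset.univ j]
    simp [mul_comm]
  have h3 : ∀ j, t * a j = t * (P.det * s j) := by
    intro j
    rw [← h2 j, ← trace_eq_of_injective b b' i hi, map_mul, hid, smul_mul_assoc, map_smul,
      hs j, smul_eq_mul]
    ring
  have h4 : ∀ j, a j = P.det * s j := fun j => mul_left_cancel₀ ht.ne_zero (h3 j)
  refine ⟨∑ k, s k • b k, ?_⟩
  have h5 : P.det • i (∑ k, s k • b k) = P.det • y := by
    rw [← hid, ← map_smul, Finset.smul_sum]
    congr 1
    refine Finset.sum_congr rfl fun k _ => ?_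
    rw [h4 k, mul_smul]
  exact smul_right_injective D' hdet h5

end Fermat.Agent.S30.Normal.Dual
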