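import Mathlib

/-!
# A maximal order over a DVR is locally principal (row N5b of `S30/Normal/Plan.lean`)

`W` a discrete valuation ring, `D` a finite free commutative `W`-algebra which has no proper
finite free commutative over-order of the same rank (hypothesis `hmax`).  Then every maximal
ideal `𝔫` of `D` is locally principal: there are `τ ∈ 𝔫` and `s ∉ 𝔫` with `s 𝔫 ⊆ (τ)`.

Proof.  `D / t D` is Artinian, so there is `c ∉ t D` with `c 𝔫 ⊆ t D`
(`exists_not_dvd_forall_dvd_mul`).  If "multiplication by `c / t`" mapped `𝔫` into `𝔫`, it would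
be an element of the over-order `End_D(𝔫)` (commutative, finite free of the same rank), hence
multiplication by some `d ∈ D`, and then `c = t d`.  So there is `τ ∈ 𝔫` with
`s := (c / t) τ ∈ D ∖ 𝔫`, and `s m = ((c / t) m) τ` for all `m ∈ 𝔫`.
-/

set_option autoImplicit false

namespace Fermat.Agent.S30.Normal.LocalGen

/-- In a finite algebra `D` over a DVR `W` with uniformiser `t`, every maximal ideal `𝔫` of `D`
is the annihilator of an element of `D / t D`: there is `c ∉ t D` with `c 𝔫 ⊆ t D`. -/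
theorem exists_not_dvd_forall_dvd_mul {W D : Type*} [CommRing W] [IsDomain W]
    [IsDiscreteValuationRing W] [CommRing D] [Algebra W D] [Module.Finite W D]
    {t : W} (ht : Irreducible t) (𝔫 : Ideal D) (h𝔫 : 𝔫.IsMaximal)
    (htn : algebraMap W D t ∈ 𝔫) :
    ∃ c : D, ¬ algebraMap W D t ∣ c ∧ ∀ m ∈ 𝔫, algebraMap W D t ∣ c * m := by
  classical
  set 𝔪W : Ideal W := Ideal.span {t} with h𝔪W
  have hmaxW : 𝔪W.IsMaximal := PrincipalIdealRing.isMaximal_of_irreducible ht
  set T : Ideal D := 𝔪W.map (algebraMap W D) with hT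
  have hTspan : T = Ideal.span {algebraMap W D t} := by
    rw [hT, h𝔪W, Ideal.map_span, Set.image_singleton]
  have hTmem : ∀ x : D, x ∈ T ↔ algebraMap W D t ∣ x := by
    intro x; rw [hTspan, Ideal.mem_span_singleton]
  have hT𝔫 : T ≤ 𝔫 := by
    rw [hTspan, Ideal.span_singleton_le_iff_mem]; exact htn
  let _ := Ideal.Quotient.field 𝔪W
  have hfinA : Module.Finite (W ⧸ 𝔪W) (D ⧸ T) := Module.Finite.of_restrictScalars_finite W _ _
  have hart : IsArtinianRing (D ⧸ T) := IsArtinianRing.of_finite (W ⧸ 𝔪W) _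
  have hnoeth : IsNoetherianRing (D ⧸ T) := inferInstance
  set 𝔪 : Ideal (D ⧸ T) := 𝔫.map (Ideal.Quotient.mk T) with h𝔪
  have hmem𝔪 : ∀ x : D, Ideal.Quotient.mk T x ∈ 𝔪 ↔ x ∈ 𝔫 := fun x =>
    Ideal.mem_quotient_iff_mem hT𝔫
  have hone : (1 : D ⧸ T) ∉ 𝔪 := by
    intro h1
    have : (1 : D) ∈ 𝔫 := (hmem𝔪 1).mp (by simpa using h1)
    exact h𝔫.ne_top ((Ideal.eq_top_iff_one _).mpr this)
  -- the chain of powers of `𝔪` stabilises
  obtain ⟨k, hk⟩ := IsArtinian.monotone_stabilizes
    (⟨fun k => OrderDual.toDual (𝔪 ^ k), fun a b hab => Ideal.pow_le_pow_right hab⟩ :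
      ℕ →o (Submodule (D ⧸ T) (D ⧸ T))ᵒᵈ)
  have hk1 : 𝔪 ^ k = 𝔪 ^ (k + 1) := by
    have := hk (k + 1) (Nat.le_succ k)
    exact this
  -- Nakayama
  obtain ⟨r, hr1, hr2⟩ := Submodule.exists_sub_one_mem_and_smul_eq_zero_of_fg_of_le_smul 𝔪
    (𝔪 ^ k) (IsNoetherian.noetherian _) (by
      rw [smul_eq_mul, ← pow_succ']; exact hk1.le)
  have hr𝔪 : r ∉ 𝔪 := by
    intro hr
    apply hone
    have : (1 : D ⧸ T) = r - (r - 1) := by ring
    rw [this]
    exact Ideal.sub_mem _ hr hr1
  have hex : ∃ j : ℕ, ∀ x ∈ 𝔪 ^ j, r * x = 0 := ⟨k, fun x hx => by simpa using hr2 x hx⟩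
  have hj := Nat.find_spec hex
  have hjmin := fun i => Nat.find_min hex (m := i)
  set j := Nat.find hex with hjdef
  have hj0 : j ≠ 0 := by
    intro h0
    rw [h0] at hj
    have : r * 1 = 0 := hj 1 (by simp)
    rw [mul_one] at this
    exact hr𝔪 (this ▸ 𝔪.zero_mem)
  obtain ⟨j', hj'⟩ := Nat.exists_eq_succ_of_ne_zero hj0
  have hnot := hjmin j' (by omega)
  push Not at hnot
  obtain ⟨x, hx, hrx⟩ := hnot
  obtain ⟨c, hc⟩ := Ideal.Quotient.mk_surjective (r * x)
  refine ⟨c, ?_, ?_⟩
  · intro hdvd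
    apply hrx
    rw [← hc, Ideal.Quotient.eq_zero_iff_mem, hTmem]
    exact hdvd
  · intro m hm
    rw [← hTmem, ← Ideal.Quotient.eq_zero_iff_mem, map_mul, hc, mul_assoc]
    apply hj
    rw [hj', pow_succ]
    exact Ideal.mul_mem_mul hx ((hmem𝔪 m).mpr hm)

universe u

/-- **A maximal order over a DVR is locally principal at every maximal ideal.** -/
theorem exists_local_generator {W : Type*} [CommRing W] [IsDomain W] [IsDiscreteValuationRing W]
    {D : Type u} [CommRing D] [Algebra W D] [Module.Free W D] [Module.Finite W D]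
    (hmax : ∀ (D' : Type u) [CommRing D'] [Algebra W D'] [Module.Free W D'] [Module.Finite W D']
      (i : D →ₐ[W] D'), Function.Injective i → Module.finrank W D' = Module.finrank W D →
      Function.Surjective i)
    (𝔫 : Ideal D) (h𝔫 : 𝔫.IsMaximal) :
    ∃ τ ∈ 𝔫, ∃ s : D, s ∉ 𝔫 ∧ ∀ m ∈ 𝔫, s * m ∈ Ideal.span {τ} := by
  classical
  obtain ⟨t, ht⟩ := IsDiscreteValuationRing.exists_irreducible W
  set tD := algebraMap W D t with htD
  have hnt : Nontrivial D :=
    ⟨⟨0, 1, fun h => h𝔫.ne_top ((Ideal.eq_top_iff_one _).mpr (h ▸ 𝔫.zero_mem))⟩⟩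
  have hreg : ∀ a b : D, tD * a = tD * b → a = b := by
    intro a b h
    have h1 : t • (a - b) = 0 := by rw [Algebra.smul_def, mul_sub, ← htD, h, sub_self]
    rcases smul_eq_zero.mp h1 with h0 | h0
    · exact absurd h0 ht.ne_zero
    · exact sub_eq_zero.mp h0
  have htn : tD ∈ 𝔫 := by
    have hmaxc : (𝔫.comap (algebraMap W D)).IsMaximal :=
      Ideal.isMaximal_comap_of_isIntegral_of_isMaximal 𝔫
    have h1 : 𝔫.comap (algebraMap W D) = IsLocalRing.maximalIdeal W :=
      IsLocalRing.eq_maximalIdeal hmaxc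
    have ht' : t ∈ IsLocalRing.maximalIdeal W := by
      rw [IsLocalRing.mem_maximalIdeal]; exact ht.not_isUnit
    rw [← h1] at ht'
    exact ht'
  obtain ⟨c, hc1, hc2⟩ := exists_not_dvd_forall_dvd_mul ht 𝔫 h𝔫 htn
  by_contra hcon
  push Not at hcon
  have hstab : ∀ τ ∈ 𝔫, ∀ s, c * τ = tD * s → s ∈ 𝔫 := by
    intro τ hτ s hs
    by_contra hsn
    obtain ⟨m, hm, hm2⟩ := hcon τ hτ s hsn
    apply hm2
    obtain ⟨d, hd⟩ := hc2 m hm
    have h1 : s * m = τ * d := hreg _ _ (by linear_combination (-m) * hs + τ * hd)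
    rw [h1]
    exact Ideal.mul_mem_right _ _ (Ideal.mem_span_singleton_self τ)
  -- "multiplication by `c / t`" as an endomorphism of `𝔫`
  have hc2' : ∀ m ∈ 𝔫, ∃ d : D, c * m = tD * d := hc2
  choose! ψ hψ using hc2'
  let φ : 𝔫 →ₗ[D] 𝔫 :=
    { toFun := fun m => ⟨ψ m, hstab m m.2 _ (hψ m m.2)⟩
      map_add' := by
        intro m₁ m₂
        apply Subtype.ext
        apply hreg
        have h1 := hψ _ m₁.2
        have h2 := hψ _ m₂.2
        have h3 : c * ((m₁ : D) + (m₂ : D)) = tD * ψ ((m₁ : D) + (m₂ : D)) :=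
          hψ _ (𝔫.add_mem m₁.2 m₂.2)
        show tD * ψ ((m₁ : D) + (m₂ : D)) = tD * (ψ (m₁ : D) + ψ (m₂ : D))
        linear_combination h1 + h2 - h3
      map_smul' := by
        intro a m
        apply Subtype.ext
        apply hreg
        have h1 := hψ _ m.2
        have h3 : c * (a * (m : D)) = tD * ψ (a * (m : D)) := hψ _ (𝔫.mul_mem_left a m.2)
        show tD * ψ (a * (m : D)) = tD * (a * ψ (m : D))
        linear_combination a * h1 - h3 }
  have hφ : ∀ m : 𝔫, c * (m : D) = tD * (φ m : D) := fun m => hψ m m.2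
  -- the over-order `End_D(𝔫)`
  let τ0 : 𝔫 := ⟨tD, htn⟩
  have hev : ∀ (f : Module.End D 𝔫) (m : 𝔫), tD * (f m : D) = (m : D) * (f τ0 : D) := by
    intro f m
    have h1 : tD • m = (m : D) • τ0 := by
      apply Subtype.ext
      simp [τ0, mul_comm]
    have h2 := congrArg (fun z => ((f z : 𝔫) : D)) h1
    simpa using h2
  have hcomm : ∀ f g : Module.End D 𝔫, f * g = g * f := by
    intro f g
    apply LinearMap.ext
    intro m
    apply Subtype.ext
    apply hreg
    apply hreg
    simp only [Module.End.mul_apply]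
    have e1 := hev f (g m)
    have e2 := hev g (f m)
    have e3 := hev f m
    have e4 := hev g m
    linear_combination tD * e1 - tD * e2 + (f τ0 : D) * e4 - (g τ0 : D) * e3
  let _ : CommRing (Module.End D 𝔫) :=
    { (inferInstance : Ring (Module.End D 𝔫)) with mul_comm := hcomm }
  let ev : Module.End D 𝔫 →ₗ[W] D :=
    { toFun := fun f => (f τ0 : D)
      map_add' := fun f g => by simp
      map_smul' := fun w f => by simp }
  have hevinj : Function.Injective ev := by
    rw [← LinearMap.ker_eq_bot, LinearMap.ker_eq_bot']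
    intro f hf
    apply LinearMap.ext
    intro m
    apply Subtype.ext
    apply hreg
    have hf' : (f τ0 : D) = 0 := hf
    rw [hev f m, hf']
    simp
  have hnoethW : IsNoetherian W D := isNoetherian_of_isNoetherianRing_of_finite W D
  let e : Module.End D 𝔫 ≃ₗ[W] LinearMap.range ev := LinearEquiv.ofInjective ev hevinj
  have : Module.Finite W (Module.End D 𝔫) := Module.Finite.equiv e.symm
  have : Module.Free W (Module.End D 𝔫) := Module.Free.of_equiv e.symm
  let i : D →ₐ[W] Module.End D 𝔫 := Algebra.lsmul W D 𝔫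
  have hiinj : Function.Injective i := by
    rw [injective_iff_map_eq_zero]
    intro d hd
    have h1 : (i d τ0 : D) = 0 := by rw [hd]; rfl
    have h2 : (i d τ0 : D) = d * tD := rfl
    rw [h2] at h1
    apply hreg
    rw [mul_zero, mul_comm]; exact h1
  have hrank : Module.finrank W (Module.End D 𝔫) = Module.finrank W D := by
    apply le_antisymm
    · exact LinearMap.finrank_le_finrank_of_injective hevinj
    · exact LinearMap.finrank_le_finrank_of_injective (f := i.toLinearMap) hiinj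
  obtain ⟨d, hd⟩ := hmax (Module.End D 𝔫) i hiinj hrank φ
  apply hc1
  refine ⟨d, ?_⟩
  have h1 : (φ τ0 : D) = d * tD := by rw [← hd]; rfl
  have h2 := hφ τ0
  rw [h1] at h2
  apply hreg
  have h3 : (τ0 : D) = tD := rfl
  rw [h3] at h2
  linear_combination h2

end Fermat.Agent.S30.Normal.LocalGen
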