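import Mathlib
import Fermat.Agent.Lib.TraceNil

/-!
# Tameness in residue characteristic zero, trace form (row N3 of `S30/Normal/Plan.lean`)

* `exists_pow_dvd_of_trace_dvd` : `C` finite free over `R` with basis `b`, `(p)` a prime ideal of
  `R` with `R ⧸ (p)` of characteristic zero.  If `p ∣ Tr(x y)` for all `y`, then `x` is nilpotent
  modulo `p`.
* `dvd_of_sq_dvd_trace` : `B` a Dedekind domain, finite free over the domain `V`, `t` a prime
  element of `V` with `V ⧸ (t)` of characteristic zero.  If `t ^ 2 ∣ Tr(y z)` for all `z`, then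
  `t ∣ y` in `B`.  (In classical terms: `t` times the trace dual of `B` is contained in `B`, i.e.
  the different is not divisible by `P ^ e`: all ramification over `t` is tame.)
-/

set_option autoImplicit false

namespace Fermat.Agent.S30.Normal.TameDual

open Fermat.Agent.Lib

/-- In residue characteristic zero the kernel of the trace form modulo `p` consists of elements
nilpotent modulo `p`. -/
theorem exists_pow_dvd_of_trace_dvd {R C ι : Type*} [CommRing R] [CommRing C] [Algebra R C]
    [Fintype ι] [DecidableEq ι] (b : Module.Basis ι R C) {p : R}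
    (hI : (Ideal.span {p}).IsPrime) [CharZero (R ⧸ Ideal.span {p})] (x : C)
    (hx : ∀ y : C, p ∣ Algebra.trace R C (x * y)) : ∃ n : ℕ, algebraMap R C p ∣ x ^ n := by
  classical
  set I : Ideal R := Ideal.span {p} with hIdef
  let k := R ⧸ I
  let F := FractionRing k
  have hinjF : Function.Injective (algebraMap k F) := IsFractionRing.injective k F
  have hcharF : CharZero F := charZero_of_injective_algebraMap hinjF
  set M : Matrix ι ι k := UnitDisc.redMat b I x with hM
  set N : Matrix ι ι F := (algebraMap k F).mapMatrix M with hN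
  have htr : ∀ j : ℕ, 0 < j → (N ^ j).trace = 0 := by
    intro j hj
    rw [hN, ← map_pow, RingHom.mapMatrix_apply, ← AddMonoidHom.map_trace]
    have : (M ^ j).trace = 0 := by
      rw [hM, ← map_pow, UnitDisc.trace_redMat, Ideal.Quotient.eq_zero_iff_mem, hIdef,
        Ideal.mem_span_singleton]
      have : x ^ j = x * x ^ (j - 1) := by
        rw [← pow_succ', Nat.sub_add_cancel hj]
      rw [this]
      exact hx _
    simp [this]
  obtain ⟨n, hn⟩ := TraceNil.isNilpotent_matrix_of_trace_pow_eq_zero N htr
  have hMn : M ^ n = 0 := by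
    have h1 : (algebraMap k F).mapMatrix (M ^ n) = 0 := by rw [map_pow]; exact hn
    have hinjM : Function.Injective ((algebraMap k F).mapMatrix : Matrix ι ι k →+* Matrix ι ι F) :=
      Matrix.map_injective hinjF
    exact hinjM (h1.trans (map_zero _).symm)
  have hxn : x ^ n ∈ I.map (algebraMap R C) := by
    apply TraceNil.mem_map_of_redMat_eq_zero b I
    rw [map_pow]; exact hMn
  rw [hIdef, Ideal.map_span, Set.image_singleton, Ideal.mem_span_singleton] at hxn
  exact ⟨n, hxn⟩

/-- **Tameness in residue characteristic zero, trace form.** -/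
theorem dvd_of_sq_dvd_trace {V B : Type*} [CommRing V] [IsDomain V] [CommRing B]
    [IsDedekindDomain B] [Algebra V B] [Module.Free V B] [Module.Finite V B]
    {t : V} (ht : Prime t) [CharZero (V ⧸ Ideal.span {t})]
    (y : B) (hy : ∀ z : B, t ^ 2 ∣ Algebra.trace V B (y * z)) :
    algebraMap V B t ∣ y := by
  classical
  set t' := algebraMap V B t with ht'
  have hinj : Function.Injective (algebraMap V B) := FaithfulSMul.algebraMap_injective V B
  have ht'0 : t' ≠ 0 := by
    rw [ht', Ne, map_eq_zero_iff _ hinj]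
    exact ht.ne_zero
  let b := Module.Free.chooseBasis V B
  have hIp : (Ideal.span {t}).IsPrime := (Ideal.span_singleton_prime ht.ne_zero).mpr ht
  have hN : ∀ w : B, (∀ z, t ∣ Algebra.trace V B (w * z)) → w ∈ (Ideal.span {t'}).radical := by
    intro w hw
    obtain ⟨n, hn⟩ := exists_pow_dvd_of_trace_dvd b hIp w hw
    exact ⟨n, Ideal.mem_span_singleton.mpr hn⟩
  have hC : Ideal.span {y} ⊓ Ideal.span {t'} ≤ Ideal.span {t'} * (Ideal.span {t'}).radical := by
    intro w hw
    obtain ⟨hw1, hw2⟩ := hw
    obtain ⟨d, rfl⟩ := Ideal.mem_span_singleton.mp hw1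
    obtain ⟨c, hc⟩ := Ideal.mem_span_singleton.mp hw2
    rw [hc]
    refine Ideal.mul_mem_mul (Ideal.mem_span_singleton_self _) (hN c ?_)
    intro z
    obtain ⟨q, hq⟩ := hy (d * z)
    have h1 : Algebra.trace V B (y * (d * z)) = t * Algebra.trace V B (c * z) := by
      rw [← mul_assoc, hc, mul_assoc, ht', ← Algebra.smul_def, map_smul, smul_eq_mul]
    rw [h1] at hq
    refine ⟨q, ?_⟩
    have : t * Algebra.trace V B (c * z) = t * (t * q) := by rw [hq]; ring
    exact mul_left_cancel₀ ht.ne_zero this
  have hD : Ideal.span {y} * Ideal.span {t'} ≤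
      Ideal.span {t'} * (Ideal.span {y} * (Ideal.span {t'}).radical ⊔ Ideal.span {t'}) := by
    rw [← Ideal.sup_mul_inf]
    calc (Ideal.span {y} ⊔ Ideal.span {t'}) * (Ideal.span {y} ⊓ Ideal.span {t'})
        ≤ (Ideal.span {y} ⊔ Ideal.span {t'}) *
            (Ideal.span {t'} * (Ideal.span {t'}).radical) := Ideal.mul_mono_right hC
      _ = Ideal.span {t'} * ((Ideal.span {y} ⊔ Ideal.span {t'}) * (Ideal.span {t'}).radical) := by
          rw [mul_left_comm]
      _ ≤ Ideal.span {t'} * (Ideal.span {y} * (Ideal.span {t'}).radical ⊔ Ideal.span {t'}) := by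
          refine Ideal.mul_mono_right ?_
          rw [Ideal.sup_mul]
          exact sup_le_sup le_rfl Ideal.mul_le_left
  have hmem : y * t' ∈ Ideal.span {y} * Ideal.span {t'} :=
    Ideal.mul_mem_mul (Ideal.mem_span_singleton_self _) (Ideal.mem_span_singleton_self _)
  obtain ⟨k, hk, hk2⟩ := Ideal.mem_span_singleton_mul.mp (hD hmem)
  have hky : k = y := by
    apply mul_left_cancel₀ ht'0
    rw [hk2]; ring
  rw [hky] at hk
  obtain ⟨a, ha, a', ha', hsum⟩ := Submodule.mem_sup.mp hk
  obtain ⟨ν, hν, rfl⟩ := Ideal.mem_span_singleton_mul.mp ha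
  obtain ⟨c, rfl⟩ := Ideal.mem_span_singleton.mp ha'
  obtain ⟨m, hm⟩ := hν
  obtain ⟨e, he⟩ := Ideal.mem_span_singleton.mp hm
  have h1 : y * (1 - ν) = t' * c := by linear_combination -hsum
  have key : y * (1 - ν ^ m) = t' * (c * ∑ i ∈ Finset.range m, ν ^ i) := by
    rw [← mul_neg_geom_sum, ← mul_assoc, h1]; ring
  exact ⟨y * e + c * ∑ i ∈ Finset.range m, ν ^ i, by linear_combination key + y * he⟩

end Fermat.Agent.S30.Normal.TameDual
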