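import Mathlib
import Fermat.Agent.S30.Normal.TameDual
import Fermat.Agent.S30.Normal.LocalGen

/-!
# The local theorem, core steps (row N6 of `S30/Normal/Plan.lean`, part 1)

* `exists_dual_matrix` : `C` free over the domain `R` with Gram matrix `G` (trace form in the basis
  `b`), `det G = ε t ^ n` with `ε` a unit, and (if `n > 0`) the tameness property
  "`t ^ 2 ∣ Tr(y z)` for all `z` implies `t ∣ y`".  Then there is a matrix `H` with `G H = t`.
* `exists_dual_family` : hence there are `c j ∈ C` with `Tr(c j * b k) = t δ_{jk}`, nilpotent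
  modulo `t` (if `n > 0`: `(t)` prime with residue characteristic zero).
* `exists_generator_of_maximal` : if `C / π C` is a maximal order over the DVR `R / π R`, then every
  maximal ideal `M` of `C` is locally generated by `π` and one more element.
-/

set_option autoImplicit false

namespace Fermat.Agent.S30.Normal.LocalCore

section Dual

variable {R C ι : Type*} [CommRing R] [CommRing C] [Algebra R C] [Fintype ι] [DecidableEq ι]

theorem trace_sum_smul_mul (b : Module.Basis ι R C) (H : Matrix ι ι R) (j k : ι) :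
    Algebra.trace R C ((∑ i, H i j • b i) * b k) = (Algebra.traceMatrix R b * H) k j := by
  rw [Finset.sum_mul, map_sum, Matrix.mul_apply]
  apply Finset.sum_congr rfl
  intro i _
  rw [smul_mul_assoc, map_smul, smul_eq_mul, Algebra.traceMatrix_apply, Algebra.traceForm_apply,
    mul_comm (b k) (b i), mul_comm]

theorem dvd_trace_mul_of_basis (b : Module.Basis ι R C) (y : C) (d : R)
    (h : ∀ k, d ∣ Algebra.trace R C (y * b k)) (z : C) : d ∣ Algebra.trace R C (y * z) := by
  rw [← b.sum_repr z, Finset.mul_sum, map_sum]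
  apply Finset.dvd_sum
  intro k _
  rw [mul_smul_comm, map_smul, smul_eq_mul]
  exact Dvd.dvd.mul_left (h k) _

/-- Dividing the adjugate of the Gram matrix by `t ^ (n - 1)`. -/
theorem exists_dual_matrix [IsDomain R] (b : Module.Basis ι R C) {t : R} (ht0 : t ≠ 0) (n : ℕ)
    (ε : R) (hε : IsUnit ε) (hdisc : Algebra.discr R b = ε * t ^ n)
    (htame : 0 < n → ∀ y : C, (∀ z : C, t ^ 2 ∣ Algebra.trace R C (y * z)) →
      algebraMap R C t ∣ y) :
    ∃ H : Matrix ι ι R, Algebra.traceMatrix R b * H = t • (1 : Matrix ι ι R) ∧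
      (n = 0 → ∀ i j, t ∣ H i j) := by
  set G := Algebra.traceMatrix R b with hG
  have hdet : G.det = ε * t ^ n := by rw [← hdisc, Algebra.discr_def]
  obtain ⟨u, rfl⟩ := hε
  rcases Nat.eq_zero_or_pos n with hn | hn
  · subst hn
    refine ⟨(t * ↑u⁻¹) • G.adjugate, ?_, fun _ i j => ?_⟩
    · rw [Matrix.mul_smul, Matrix.mul_adjugate, hdet, pow_zero, mul_one, smul_smul]
      congr 1
      rw [mul_assoc, Units.inv_mul, mul_one]
    · rw [Matrix.smul_apply, smul_eq_mul, mul_assoc]; exact dvd_mul_right _ _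
  · have hstep : ∀ j, j < n →
        ∃ H : Matrix ι ι R, G * H = ((u : R) * t ^ (n - j)) • (1 : Matrix ι ι R) := by
      intro j
      induction j with
      | zero => intro _; exact ⟨G.adjugate, by rw [Matrix.mul_adjugate, hdet, Nat.sub_zero]⟩
      | succ j ih =>
        intro hj
        obtain ⟨H, hH⟩ := ih (by omega)
        obtain ⟨m, hm1, hm2, hm3⟩ : ∃ m, n - j = m + 1 ∧ n - (j + 1) = m ∧ 1 ≤ m :=
          ⟨n - (j + 1), by omega, rfl, by omega⟩
        rw [hm1] at hH
        rw [hm2]
        have hcol : ∀ j₀, algebraMap R C t ∣ ∑ i, H i j₀ • b i := by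
          intro j₀
          apply htame hn
          apply dvd_trace_mul_of_basis b
          intro k
          rw [trace_sum_smul_mul, ← hG, hH, Matrix.smul_apply, Matrix.one_apply, smul_eq_mul]
          split_ifs
          · obtain ⟨m', rfl⟩ := Nat.exists_eq_add_of_le hm3
            exact ⟨u * t ^ m', by ring⟩
          · simp
        choose y hy using hcol
        have hHt : ∀ i j₀, H i j₀ = t * b.repr (y j₀) i := by
          intro i j₀
          have h1 : b.repr (∑ i', H i' j₀ • b i') i = b.repr (algebraMap R C t * y j₀) i := by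
            rw [← hy j₀]
          rw [Module.Basis.repr_sum_self, ← Algebra.smul_def, map_smul, Finsupp.smul_apply,
            smul_eq_mul] at h1
          exact h1
        refine ⟨Matrix.of fun i j₀ => b.repr (y j₀) i, ?_⟩
        ext i k
        have h1 := congrFun (congrFun hH i) k
        rw [Matrix.mul_apply] at h1
        rw [Matrix.mul_apply]
        apply mul_left_cancel₀ ht0
        rw [Finset.mul_sum]
        calc ∑ x, t * (G i x * (Matrix.of fun i j₀ => b.repr (y j₀) i) x k)
            = ∑ x, G i x * H x k := by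
              apply Finset.sum_congr rfl
              intro x _
              rw [hHt x k, Matrix.of_apply]; ring
          _ = (((u : R) * t ^ (m + 1)) • (1 : Matrix ι ι R)) i k := h1
          _ = t * (((u : R) * t ^ m) • (1 : Matrix ι ι R)) i k := by
              rw [Matrix.smul_apply, Matrix.smul_apply, smul_eq_mul, smul_eq_mul]; ring
    obtain ⟨H, hH⟩ := hstep (n - 1) (by omega)
    have h1 : n - (n - 1) = 1 := by omega
    rw [h1, pow_one] at hH
    refine ⟨(↑u⁻¹ : R) • H, ?_, fun h0 => absurd h0 (by omega)⟩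
    rw [Matrix.mul_smul, hH, smul_smul, ← mul_assoc, Units.inv_mul, one_mul]

/-- The `t`-dual family of the basis `b`: `Tr(c j * b k) = t δ_{jk}`, with `c j` nilpotent
modulo `t`. -/
theorem exists_dual_family [IsDomain R] (b : Module.Basis ι R C) {t : R} (ht0 : t ≠ 0) (n : ℕ)
    (ε : R) (hε : IsUnit ε) (hdisc : Algebra.discr R b = ε * t ^ n)
    (htame : 0 < n → (Ideal.span {t}).IsPrime ∧ CharZero (R ⧸ Ideal.span {t}) ∧
       ∀ y : C, (∀ z : C, t ^ 2 ∣ Algebra.trace R C (y * z)) → algebraMap R C t ∣ y) :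
    ∃ c : ι → C, (∀ j k, Algebra.trace R C (c j * b k) = if j = k then t else 0) ∧
      ∀ j, ∃ k : ℕ, algebraMap R C t ∣ c j ^ k := by
  obtain ⟨H, hH, hH0⟩ := exists_dual_matrix b ht0 n ε hε hdisc (fun hn => (htame hn).2.2)
  have hcb : ∀ j k, Algebra.trace R C ((∑ i, H i j • b i) * b k) = if j = k then t else 0 := by
    intro j k
    rw [trace_sum_smul_mul, hH, Matrix.smul_apply, Matrix.one_apply, smul_eq_mul]
    by_cases hjk : j = k
    · subst hjk; simp
    · rw [if_neg (Ne.symm hjk), if_neg hjk, mul_zero]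
  refine ⟨fun j => ∑ i, H i j • b i, hcb, fun j => ?_⟩
  rcases Nat.eq_zero_or_pos n with hn | hn
  · refine ⟨1, ?_⟩
    rw [pow_one]
    choose q hq using hH0 hn
    refine ⟨∑ i, q i j • b i, ?_⟩
    rw [Finset.mul_sum]
    apply Finset.sum_congr rfl
    intro i _
    rw [hq i j, mul_smul, Algebra.smul_def]
  · obtain ⟨hI, hchar, -⟩ := htame hn
    exact TameDual.exists_pow_dvd_of_trace_dvd b hI _
      (dvd_trace_mul_of_basis b _ t (fun k => by
        rw [hcb]; split_ifs; exacts [dvd_rfl, dvd_zero _]))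

end Dual

universe u

/-- If `C / π C` is a maximal order over the DVR `R / π R`, every maximal ideal of `C` is locally
generated by `π` and one more element. -/
theorem exists_generator_of_maximal
    {R : Type*} [CommRing R] [IsLocalRing R] {π : R}
    [IsDomain (R ⧸ Ideal.span {π})] [IsDiscreteValuationRing (R ⧸ Ideal.span {π})]
    (hπ : π ∈ IsLocalRing.maximalIdeal R)
    {C : Type u} [CommRing C] [Algebra R C] [Module.Finite R C]
    [Module.Free (R ⧸ Ideal.span {π}) (C ⧸ (Ideal.span {π}).map (algebraMap R C))]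
    [Module.Finite (R ⧸ Ideal.span {π}) (C ⧸ (Ideal.span {π}).map (algebraMap R C))]
    (hmax : ∀ (D' : Type u) [CommRing D'] [Algebra (R ⧸ Ideal.span {π}) D']
      [Module.Free (R ⧸ Ideal.span {π}) D'] [Module.Finite (R ⧸ Ideal.span {π}) D']
      (i : (C ⧸ (Ideal.span {π}).map (algebraMap R C)) →ₐ[R ⧸ Ideal.span {π}] D'),
      Function.Injective i →
      Module.finrank (R ⧸ Ideal.span {π}) D' =
        Module.finrank (R ⧸ Ideal.span {π}) (C ⧸ (Ideal.span {π}).map (algebraMap R C)) →
      Function.Surjective i)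
    (M : Ideal C) (hM : M.IsMaximal) :
    ∃ τ ∈ M, ∃ s : C, s ∉ M ∧ ∀ m ∈ M, s * m ∈ Ideal.span {algebraMap R C π, τ} := by
  have hPspan : (Ideal.span {π}).map (algebraMap R C) = Ideal.span {algebraMap R C π} := by
    rw [Ideal.map_span, Set.image_singleton]
  have hπM : algebraMap R C π ∈ M := by
    have hmaxc : (M.comap (algebraMap R C)).IsMaximal :=
      Ideal.isMaximal_comap_of_isIntegral_of_isMaximal M
    have h1 : M.comap (algebraMap R C) = IsLocalRing.maximalIdeal R :=
      IsLocalRing.eq_maximalIdeal hmaxc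
    have h2 : π ∈ M.comap (algebraMap R C) := h1 ▸ hπ
    exact h2
  have hPM : (Ideal.span {π}).map (algebraMap R C) ≤ M := by
    rw [hPspan, Ideal.span_singleton_le_iff_mem]; exact hπM
  have hmem : ∀ x : C, Ideal.Quotient.mk ((Ideal.span {π}).map (algebraMap R C)) x ∈
      M.map (Ideal.Quotient.mk ((Ideal.span {π}).map (algebraMap R C))) ↔ x ∈ M := fun x =>
    Ideal.mem_quotient_iff_mem hPM
  have h𝔫max : (M.map (Ideal.Quotient.mk ((Ideal.span {π}).map (algebraMap R C)))).IsMaximal := by
    rcases Ideal.map_eq_top_or_isMaximal_of_surjective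
      (Ideal.Quotient.mk ((Ideal.span {π}).map (algebraMap R C)))
      Ideal.Quotient.mk_surjective hM with h | h
    · exfalso
      have h1 : Ideal.Quotient.mk ((Ideal.span {π}).map (algebraMap R C)) 1 ∈
          M.map (Ideal.Quotient.mk ((Ideal.span {π}).map (algebraMap R C))) := by
        rw [h]; trivial
      exact hM.ne_top ((Ideal.eq_top_iff_one _).mpr ((hmem 1).mp h1))
    · exact h
  obtain ⟨τ', hτ', s', hs', hsm⟩ := LocalGen.exists_local_generator hmax _ h𝔫max
  obtain ⟨τ, rfl⟩ := Ideal.Quotient.mk_surjective τ'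
  obtain ⟨s, rfl⟩ := Ideal.Quotient.mk_surjective s'
  refine ⟨τ, (hmem τ).mp hτ', s, fun h => hs' ((hmem s).mpr h), fun m hm => ?_⟩
  have h1 := hsm (Ideal.Quotient.mk _ m) ((hmem m).mpr hm)
  rw [Ideal.mem_span_singleton] at h1
  obtain ⟨d', hd'⟩ := h1
  obtain ⟨d, rfl⟩ := Ideal.Quotient.mk_surjective d'
  rw [← map_mul, ← map_mul, Ideal.Quotient.eq, hPspan, Ideal.mem_span_singleton] at hd'
  obtain ⟨e, he⟩ := hd'
  rw [Ideal.mem_span_pair]
  exact ⟨e, d, by linear_combination -he⟩

end Fermat.Agent.S30.Normal.LocalCore
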