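import Mathlib
import Fermat.Agent.S30.Normal.LocalCore
import Fermat.Agent.S30.Normal.Dual
import Fermat.Agent.S34.Lib.QuotBasis

/-!
# The local theorem: the special fibre is regular (row N6 of `S30/Normal/Plan.lean`)

`R` a local domain, `π` in its maximal ideal with `R / π` a discrete valuation ring with
uniformiser `t mod π` (so `R` is a two-dimensional regular local ring with parameters `π, t`);
`C` a finite free `R`-algebra with basis `b` whose discriminant is `unit * t ^ n` (unramified
outside `t = 0`), tame along `t = 0` in the trace form (`htame`, automatic in residue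
characteristic zero: `TameDual.dvd_of_sq_dvd_trace`).  Then every maximal ideal `M` of `C` is
locally generated by `π` and one more element: `C / π C` is a regular (= normal) curve.

Proof: `LocalCore.exists_dual_family` gives the `t`-dual family of `b`, nilpotent modulo `t`;
both properties survive reduction modulo `π` (`S34.Lib.QuotBasis`); by the duality criterion
`Dual.surjective_of_dual` (helper264) `C / π C` is a maximal order over the DVR `R / π`; a maximal
order is locally principal at each maximal ideal (`LocalGen.exists_local_generator`); lift.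
-/

set_option autoImplicit false

namespace Fermat.Agent.S30.Normal.Local

open Fermat.Agent.S34.Lib

theorem exists_generator_of_discr
    {R : Type*} [CommRing R] [IsDomain R] [IsLocalRing R]
    {π t : R} [IsDomain (R ⧸ Ideal.span {π})] [IsDiscreteValuationRing (R ⧸ Ideal.span {π})]
    (hπ : π ∈ IsLocalRing.maximalIdeal R)
    (hunif : Irreducible (Ideal.Quotient.mk (Ideal.span {π}) t))
    {C : Type*} [CommRing C] [Algebra R C] {ι : Type*} [Fintype ι] [DecidableEq ι]
    (b : Module.Basis ι R C)
    (n : ℕ) (ε : R) (hε : IsUnit ε) (hdisc : Algebra.discr R b = ε * t ^ n)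
    (htame : 0 < n → (Ideal.span {t}).IsPrime ∧ CharZero (R ⧸ Ideal.span {t}) ∧
       ∀ y : C, (∀ z : C, t ^ 2 ∣ Algebra.trace R C (y * z)) → algebraMap R C t ∣ y)
    (M : Ideal C) (hM : M.IsMaximal) :
    ∃ τ ∈ M, ∃ s : C, s ∉ M ∧ ∀ m ∈ M, s * m ∈ Ideal.span {algebraMap R C π, τ} := by
  classical
  have ht0 : t ≠ 0 := by
    rintro rfl
    exact hunif.ne_zero (map_zero _)
  obtain ⟨c, hcb, hnil⟩ := LocalCore.exists_dual_family b ht0 n ε hε hdisc htame
  have hprime : Prime (Ideal.Quotient.mk (Ideal.span {π}) t) := hunif.prime
  have hfin : Module.Finite R C := Module.Finite.of_basis b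
  let bq := QuotBasis.quotBasis (Ideal.span {π}) b
  have hfree' : Module.Free (R ⧸ Ideal.span {π}) (C ⧸ (Ideal.span {π}).map (algebraMap R C)) :=
    Module.Free.of_basis bq
  have hfin' : Module.Finite (R ⧸ Ideal.span {π}) (C ⧸ (Ideal.span {π}).map (algebraMap R C)) :=
    Module.Finite.of_basis bq
  refine LocalCore.exists_generator_of_maximal hπ (fun D' _ _ _ _ i hi hrank => ?_) M hM
  refine Dual.surjective_of_dual hprime bq (fun j => Ideal.Quotient.mk _ (c j)) ?_ ?_ i hi
    (hrank.trans (Module.finrank_eq_card_basis bq))
  · intro j k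
    rw [QuotBasis.quotBasis_apply, ← map_mul, QuotBasis.trace_quotient_mk (Ideal.span {π}) b, hcb]
    split_ifs <;> simp
  · intro j
    obtain ⟨k, z, hz⟩ := hnil j
    refine ⟨k, Ideal.Quotient.mk _ z, ?_⟩
    rw [← map_pow, hz, map_mul]
    rfl

end Fermat.Agent.S30.Normal.Local
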