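import Mathlib
import Fermat.Agent.S30.Normal.TameDual

/-!
# Tameness in residue characteristic zero, trace form, over a NORMAL (not nec. Dedekind) ring

`dvd_of_sq_dvd_trace` : `C` a Noetherian integrally closed domain, finite free over the domain
`R` with basis `b`; `t ≠ 0` generates a prime ideal of `R` with `R ⧸ (t)` of characteristic zero.
If `t ^ 2 ∣ Tr(y z)` for all `z : C`, then `t ∣ y` in `C`.

This is the hypothesis `htame` of `Plan.exists_generator_of_discr`, proved directly over the
two-dimensional base `R` (no Dedekind hypothesis, no localisation): with `J = rad(tC)` one has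
`J ^ N ≤ tC`, and a downward induction on `k` shows `t ∣ y j` for all `j ∈ J ^ k`: for `w = y j`
and `j' ∈ J`, `w j' = t z` with `Tr(z c) = Tr(y j j' c) / t ∈ tR`, so `z ∈ J`
(`TameDual.exists_pow_dvd_of_trace_dvd`); hence `(w / t) J ⊆ J`, and `w / t ∈ C` by normality.
-/

set_option autoImplicit false

namespace Fermat.Agent.S30.Normal.TameNormal

/-- Normality, in the form "a fraction stabilising a nonzero finitely generated ideal is
integral": if `w J ⊆ t' J` for a finitely generated ideal `J ∋ t' ≠ 0` of the integrally closed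
domain `C`, then `t' ∣ w`. -/
theorem dvd_of_mul_mem {C : Type*} [CommRing C] [IsDomain C] [IsIntegrallyClosed C]
    (J : Ideal C) (hJ : J.FG) {t' : C} (ht' : t' ≠ 0) (htJ : t' ∈ J) (w : C)
    (h : ∀ j ∈ J, ∃ z ∈ J, w * j = t' * z) : t' ∣ w := by
  classical
  let K := FractionRing C
  have hinj : Function.Injective (algebraMap C K) := IsFractionRing.injective C K
  have ht'K : algebraMap C K t' ≠ 0 := by
    rw [Ne, map_eq_zero_iff _ hinj]; exact ht'
  set x : K := algebraMap C K w / algebraMap C K t' with hx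
  let N : Submodule C K := Submodule.map (Algebra.linearMap C K) J
  have hN : N ≠ ⊥ := by
    intro h0
    have hmem : algebraMap C K t' ∈ N := ⟨t', htJ, rfl⟩
    rw [h0, Submodule.mem_bot] at hmem
    exact ht'K hmem
  have hN' : N.FG := Submodule.FG.map _ hJ
  have hxN : ∀ n ∈ N, x • n ∈ N := by
    rintro n ⟨j, hj, rfl⟩
    obtain ⟨z, hz, hwz⟩ := h j hj
    refine ⟨z, hz, ?_⟩
    simp only [Algebra.linearMap_apply, smul_eq_mul]
    rw [hx, div_mul_eq_mul_div, ← map_mul, hwz, map_mul, mul_div_cancel_left₀ _ ht'K]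
  have hint : IsIntegral C x := isIntegral_of_smul_mem_submodule N hN hN' x hxN
  obtain ⟨c, hc⟩ := IsIntegrallyClosed.isIntegral_iff.mp hint
  refine ⟨c, hinj ?_⟩
  rw [map_mul, hc, hx, mul_div_cancel₀ _ ht'K]

/-- **Tameness in residue characteristic zero, trace form, over a normal base.** -/
theorem dvd_of_sq_dvd_trace {R C ι : Type*} [CommRing R] [IsDomain R] [CommRing C] [IsDomain C]
    [IsIntegrallyClosed C] [IsNoetherianRing C] [Algebra R C] [Fintype ι] [DecidableEq ι]
    (b : Module.Basis ι R C) {t : R} (ht : t ≠ 0) (hI : (Ideal.span {t}).IsPrime)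
    [CharZero (R ⧸ Ideal.span {t})] (y : C)
    (hy : ∀ z : C, t ^ 2 ∣ Algebra.trace R C (y * z)) : algebraMap R C t ∣ y := by
  classical
  have : Module.Free R C := Module.Free.of_basis b
  have hinj : Function.Injective (algebraMap R C) := FaithfulSMul.algebraMap_injective R C
  set t' : C := algebraMap R C t with ht'
  have ht'0 : t' ≠ 0 := by
    rw [ht', Ne, map_eq_zero_iff _ hinj]; exact ht
  set J : Ideal C := (Ideal.span {t'}).radical with hJ
  have hJfg : J.FG := IsNoetherian.noetherian J
  have htJ : t' ∈ J := Ideal.le_radical (Ideal.mem_span_singleton_self t')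
  -- (i) the kernel of the trace form modulo `t` lies in `J`
  have hker : ∀ w : C, (∀ z, t ∣ Algebra.trace R C (w * z)) → w ∈ J := by
    intro w hw
    obtain ⟨n, hn⟩ := TameDual.exists_pow_dvd_of_trace_dvd b hI w hw
    exact ⟨n, Ideal.mem_span_singleton.mpr hn⟩
  obtain ⟨N, hN⟩ := Ideal.exists_radical_pow_le_of_fg (Ideal.span {t'}) hJfg
  -- the downward step
  have hstep : ∀ k : ℕ, (∀ j ∈ J ^ (k + 1), t' ∣ y * j) → ∀ j ∈ J ^ k, t' ∣ y * j := by
    intro k hk j hj
    refine dvd_of_mul_mem J hJfg ht'0 htJ (y * j) ?_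
    intro j' hj'
    have hjj' : j * j' ∈ J ^ (k + 1) := by
      rw [pow_succ]; exact Ideal.mul_mem_mul hj hj'
    obtain ⟨z, hz⟩ := hk (j * j') hjj'
    refine ⟨z, hker z ?_, by rw [mul_assoc, hz]⟩
    intro c
    obtain ⟨q, hq⟩ := hy (j * j' * c)
    have h1 : Algebra.trace R C (y * (j * j' * c)) = t * Algebra.trace R C (z * c) := by
      have : y * (j * j' * c) = t • (z * c) := by
        rw [Algebra.smul_def, ← ht', ← mul_assoc, ← mul_assoc, ← mul_assoc, mul_assoc y j j', hz]
      rw [this, map_smul, smul_eq_mul]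
    rw [h1] at hq
    refine ⟨q, ?_⟩
    have : t * Algebra.trace R C (z * c) = t * (t * q) := by rw [hq]; ring
    exact mul_left_cancel₀ ht this
  -- start of the induction: `J ^ N ≤ (t')`
  have hall : ∀ m : ℕ, m ≤ N → ∀ j ∈ J ^ (N - m), t' ∣ y * j := by
    intro m
    induction m with
    | zero =>
      intro _ j hj
      have : j ∈ Ideal.span {t'} := hN (by simpa using hj)
      exact Dvd.dvd.mul_left (Ideal.mem_span_singleton.mp this) y
    | succ m ih =>
      intro hm j hj
      refine hstep (N - (m + 1)) ?_ j hj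
      have : N - (m + 1) + 1 = N - m := by omega
      rw [this]
      exact ih (by omega)
  have h0 := hall N le_rfl 1 (by simp)
  simpa using h0

/-- The hypothesis `htame` of `Plan.exists_generator_of_discr`, literally, for a Noetherian
integrally closed domain `C` free over the domain `R`, when `(t)` is a prime ideal with residue
characteristic zero. -/
theorem htame_of_normal {R C ι : Type*} [CommRing R] [IsDomain R] [CommRing C] [IsDomain C]
    [IsIntegrallyClosed C] [IsNoetherianRing C] [Algebra R C] [Fintype ι] [DecidableEq ι]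
    (b : Module.Basis ι R C) {t : R} (ht : t ≠ 0) (hI : (Ideal.span {t}).IsPrime)
    (hchar : CharZero (R ⧸ Ideal.span {t})) (n : ℕ) :
    0 < n → (Ideal.span {t}).IsPrime ∧ CharZero (R ⧸ Ideal.span {t}) ∧
      ∀ y : C, (∀ z : C, t ^ 2 ∣ Algebra.trace R C (y * z)) → algebraMap R C t ∣ y :=
  fun _ => ⟨hI, hchar, fun y hy => dvd_of_sq_dvd_trace b ht hI y hy⟩

end Fermat.Agent.S30.Normal.TameNormal
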