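import Mathlib
import Fermat.Agent.S30.Model.ChartReg
import Fermat.Agent.S30.Model.BranchGlue
import Fermat.Agent.S30.Normal.Local
import Fermat.Agent.S30.Normal.TameNormal

/-!
# The branch-point regularity statement `ChartReg.RegBranchStatement` (row N7 / F10)

`regBranchStatement : ChartReg.RegBranchStatement` — at a branch point `x = (π, τ)` of a chart
the special fibre of the integral closure is regular at every maximal ideal over `x`.

Proof: localise at `x` (the plumbing of `BranchGlue.branchStatement_of_local`), apply the local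
theorem `Normal.Local.exists_generator_of_discr` over `R = A_x` with the tameness input
`TameNormal.htame_of_normal` (intrinsic, from normality of the integral closure), and descend
along the localisation with `RegNB.regAt_of_isLocalization`.
-/

set_option autoImplicit false

namespace Fermat.Agent.S30.Normal.RegBranch

open Fermat.Agent.S30.Model

universe u

/-- Residue characteristic zero from non-divisibility of the nonzero natural numbers. -/
theorem charZero_quotient_span {R : Type*} [CommRing R] {t : R}
    (hchar : ∀ n : ℕ, n ≠ 0 → ¬ t ∣ (n : R)) : CharZero (R ⧸ Ideal.span {t}) := by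
  refine charZero_of_inj_zero fun n hn => ?_
  by_contra hn0
  refine hchar n hn0 ?_
  rw [← map_natCast (Ideal.Quotient.mk (Ideal.span {t})) n, Ideal.Quotient.eq_zero_iff_mem,
    Ideal.mem_span_singleton] at hn
  exact hn

/-- The class of `τ` is not a unit modulo `π` when `π, τ` lie in the maximal ideal. -/
theorem not_isUnit_mk {R : Type*} [CommRing R] [IsLocalRing R] {π τ : R}
    (hπ : π ∈ IsLocalRing.maximalIdeal R) (hτ : τ ∈ IsLocalRing.maximalIdeal R) :
    ¬ IsUnit (Ideal.Quotient.mk (Ideal.span {π}) τ) := by
  intro hu
  obtain ⟨v, hv⟩ := isUnit_iff_exists_inv.mp hu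
  obtain ⟨c, rfl⟩ := Ideal.Quotient.mk_surjective v
  rw [← map_mul, ← map_one (Ideal.Quotient.mk (Ideal.span {π})), Ideal.Quotient.eq,
    Ideal.mem_span_singleton] at hv
  obtain ⟨d, hd⟩ := hv
  have h1 : (1 : R) ∈ IsLocalRing.maximalIdeal R := by
    have : (1 : R) = τ * c - π * d := by rw [← hd]; ring
    rw [this]
    exact Ideal.sub_mem _ (Ideal.mul_mem_right _ _ hτ) (Ideal.mul_mem_right _ _ hπ)
  exact (IsLocalRing.maximalIdeal.isMaximal R).ne_top ((Ideal.eq_top_iff_one _).mpr h1)

/-- The local theorem over `R = A_x` in `RegAt` form: the hypotheses are those of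
`BranchGlue.LocalBranchStatement`. -/
theorem regAt_local (R K L : Type u) [CommRing R] [IsDomain R] [IsLocalRing R]
    [IsNoetherianRing R] [IsIntegrallyClosed R] [Field K] [Algebra R K] [IsFractionRing R K]
    [Field L] [Algebra K L] [Algebra R L] [IsScalarTower R K L] [FiniteDimensional K L]
    [Module.Free R (integralClosure R L)] [Module.Finite R (integralClosure R L)]
    (π τ : R) (hπ : Prime π) (hτ : Prime τ) (hπτ : ¬ π ∣ τ)
    [IsPrincipalIdealRing (R ⧸ Ideal.span {π})]
    (hmax : IsLocalRing.maximalIdeal R = Ideal.span {π, τ})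
    (hchar : ∀ n : ℕ, n ≠ 0 → ¬ τ ∣ (n : R))
    (hdisc : ∃ n : ℕ, Algebra.discr R (Module.Free.chooseBasis R (integralClosure R L)) ∣ τ ^ n)
    (M : Ideal (integralClosure R L)) (hM : M.IsMaximal) :
    RegNB.RegAt (algebraMap R (integralClosure R L) π) M := by
  classical
  have hπm : π ∈ IsLocalRing.maximalIdeal R := by
    rw [hmax]; exact Ideal.subset_span (Set.mem_insert _ _)
  have hτm : τ ∈ IsLocalRing.maximalIdeal R := by
    rw [hmax]; exact Ideal.subset_span (Set.mem_insert_of_mem _ rfl)
  have hIπ : (Ideal.span {π}).IsPrime := (Ideal.span_singleton_prime hπ.ne_zero).mpr hπ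
  have hIτ : (Ideal.span {τ}).IsPrime := (Ideal.span_singleton_prime hτ.ne_zero).mpr hτ
  have domQ : IsDomain (R ⧸ Ideal.span {π}) := Ideal.Quotient.isDomain _
  have locQ : IsLocalRing (R ⧸ Ideal.span {π}) :=
    IsLocalRing.of_surjective' (Ideal.Quotient.mk (Ideal.span {π})) Ideal.Quotient.mk_surjective
  have hτQ0 : Ideal.Quotient.mk (Ideal.span {π}) τ ≠ 0 := by
    rw [Ne, Ideal.Quotient.eq_zero_iff_mem, Ideal.mem_span_singleton]; exact hπτ
  have hτQm : Ideal.Quotient.mk (Ideal.span {π}) τ ∈
      IsLocalRing.maximalIdeal (R ⧸ Ideal.span {π}) :=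
    (IsLocalRing.mem_maximalIdeal _).mpr (not_isUnit_mk hπm hτm)
  have dvrQ : IsDiscreteValuationRing (R ⧸ Ideal.span {π}) :=
    { not_a_field' := fun h0 => hτQ0 (by rw [h0] at hτQm; exact hτQm) }
  have hunif : Irreducible (Ideal.Quotient.mk (Ideal.span {π}) τ) := by
    rw [IsDiscreteValuationRing.irreducible_iff_uniformizer]
    apply le_antisymm
    · intro y hy
      obtain ⟨r, rfl⟩ := Ideal.Quotient.mk_surjective y
      have hr : r ∈ IsLocalRing.maximalIdeal R := by
        rw [IsLocalRing.mem_maximalIdeal, mem_nonunits_iff]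
        intro hu
        exact (IsLocalRing.mem_maximalIdeal _).mp hy (hu.map _)
      rw [hmax, Ideal.mem_span_pair] at hr
      obtain ⟨a, b, hab⟩ := hr
      rw [Ideal.mem_span_singleton]
      refine ⟨Ideal.Quotient.mk _ b, ?_⟩
      rw [← hab, map_add, map_mul, map_mul]
      have : Ideal.Quotient.mk (Ideal.span {π}) π = 0 :=
        Ideal.Quotient.eq_zero_iff_mem.mpr (Ideal.mem_span_singleton_self π)
      rw [this]; ring
    · rw [Ideal.span_le, Set.singleton_subset_iff]; exact hτQm
  obtain ⟨n, hn⟩ := hdisc
  obtain ⟨k, -, hk⟩ := (dvd_prime_pow hτ n).mp hn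
  obtain ⟨v, hv⟩ := hk
  have hdisc' : Algebra.discr R (Module.Free.chooseBasis R (integralClosure R L)) =
      ((v⁻¹ : Rˣ) : R) * τ ^ k := by
    rw [← hv, mul_comm _ (v : R), ← mul_assoc, Units.inv_mul, one_mul]
  have hicC : IsIntegrallyClosed (integralClosure R L) :=
    integralClosure.isIntegrallyClosedOfFiniteExtension K
  have hnoeth : IsNoetherianRing (integralClosure R L) :=
    isNoetherian_of_tower R (inferInstance : IsNoetherian R (integralClosure R L))
  have hcharZ : CharZero (R ⧸ Ideal.span {τ}) := charZero_quotient_span hchar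
  obtain ⟨z, hz, s, hs, hall⟩ := Local.exists_generator_of_discr (π := π) (t := τ) hπm hunif
    (Module.Free.chooseBasis R (integralClosure R L)) k ((v⁻¹ : Rˣ) : R) (Units.isUnit _) hdisc'
    (TameNormal.htame_of_normal (Module.Free.chooseBasis R (integralClosure R L)) hτ.ne_zero hIτ
      hcharZ k) M hM
  exact ⟨z, hz, fun m hm => ⟨s, hs, hall m hm⟩⟩

/-- **The branch-point regularity statement** (`ChartReg.RegBranchStatement`, = row F10). -/
theorem regBranchStatement : ChartReg.RegBranchStatement.{u} := by
  intro A K L _ _ _ _ _ _ _ _ _ _ _ _ _ _ _ π τ hπ hτ hπτ _ hmax hchar M hM hπM hτM h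
  classical
  have hinjK : Function.Injective (algebraMap A K) := IsFractionRing.injective A K
  have hinj : Function.Injective (algebraMap A L) := by
    rw [IsScalarTower.algebraMap_eq A K L]
    exact (algebraMap K L).injective.comp hinjK
  set x : Ideal A := M.comap (algebraMap A (integralClosure A L)) with hx
  have hxmax : x.IsMaximal := Ideal.isMaximal_comap_of_isIntegral_of_isMaximal M
  have hπx : π ∈ x := Ideal.mem_comap.mpr hπM
  have hτx : τ ∈ x := Ideal.mem_comap.mpr hτM
  have hxeq : Ideal.span {π, τ} = x := by
    refine hmax.eq_of_le hxmax.ne_top ?_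
    rw [Ideal.span_le]
    rintro y (rfl | rfl)
    · exact hπx
    · exact hτx
  have hunitK : ∀ y : x.primeCompl, IsUnit (algebraMap A K y) := fun y =>
    IsUnit.mk0 _ ((map_ne_zero_iff _ hinjK).mpr (fun h0 => y.2 (h0 ▸ x.zero_mem)))
  have hunit : ∀ y : x.primeCompl, IsUnit (algebraMap A L y) := fun y =>
    IsUnit.mk0 _ ((map_ne_zero_iff _ hinj).mpr (fun h0 => y.2 (h0 ▸ x.zero_mem)))
  let R := Localization.AtPrime x
  let algRK : Algebra R K := (IsLocalization.lift (M := x.primeCompl) hunitK).toAlgebra
  have towerARK : IsScalarTower A R K := IsScalarTower.of_algebraMap_eq fun a => by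
    simp [RingHom.algebraMap_toAlgebra, R]
  have fracR : IsFractionRing R K :=
    IsFractionRing.isFractionRing_of_isDomain_of_isLocalization x.primeCompl R K
  let algRL : Algebra R L := ((algebraMap K L).comp (algebraMap R K)).toAlgebra
  have towerRKL : IsScalarTower R K L := IsScalarTower.of_algebraMap_eq fun a => rfl
  have towerARL : IsScalarTower A R L := IsScalarTower.of_algebraMap_eq fun a => by
    rw [RingHom.algebraMap_toAlgebra, RingHom.comp_apply, ← IsScalarTower.algebraMap_apply A R K,
      ← IsScalarTower.algebraMap_apply A K L]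
  have domR : IsDomain R := IsLocalization.isDomain_of_atPrime R x
  have locR : IsLocalRing R := IsLocalization.AtPrime.isLocalRing R x
  have noethR : IsNoetherianRing R := IsLocalization.isNoetherianRing x.primeCompl R inferInstance
  have icR : IsIntegrallyClosed R :=
    isIntegrallyClosed_of_isLocalization R x.primeCompl x.primeCompl_le_nonZeroDivisors
  have pirR : IsPrincipalIdealRing (R ⧸ Ideal.span {algebraMap A R π}) :=
    RegLocal.isPrincipalIdealRing_quotient x.primeCompl R π
  have freeC : Module.Free R (integralClosure R L) :=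
    RegLocal.free_integralClosure_of_isLocalization_atPrime hπ x hπx R K L
  have finC : Module.Finite R (integralClosure R L) :=
    IsIntegralClosure.finite R K L (integralClosure R L)
  have hπ' : Prime (algebraMap A R π) := RegLocal.prime_algebraMap π x R hπ hπx
  have hτ' : Prime (algebraMap A R τ) := RegLocal.prime_algebraMap τ x R hτ hτx
  have hπτ' : ¬ algebraMap A R π ∣ algebraMap A R τ := fun hd =>
    hπτ (BranchGlue.dvd_of_algebraMap_dvd (R := R) x hπ hπx hd)
  have hmax' : IsLocalRing.maximalIdeal R =
      Ideal.span {algebraMap A R π, algebraMap A R τ} := by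
    have h1 : Ideal.map (algebraMap A R) x = IsLocalRing.maximalIdeal R :=
      IsLocalization.AtPrime.map_eq_maximalIdeal x R
    have h2 : Ideal.map (algebraMap A R) (Ideal.span {π, τ}) = Ideal.map (algebraMap A R) x :=
      congrArg (Ideal.map (algebraMap A R)) hxeq
    rw [← h1, ← h2, Ideal.map_span, Set.image_pair]
  have hchar' : ∀ n : ℕ, n ≠ 0 → ¬ algebraMap A R τ ∣ (n : R) := by
    intro n hn hd
    rw [← map_natCast (algebraMap A R) n] at hd
    exact hchar n hn (BranchGlue.dvd_of_algebraMap_dvd (R := R) x hτ hτx hd)
  -- the discriminant divides a power of `τ`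
  have hdisc : ∃ n : ℕ,
      Algebra.discr R (Module.Free.chooseBasis R (integralClosure R L)) ∣
        algebraMap A R τ ^ n := by
    refine LocalDisc.discr_dvd_pow (K := K) (L := L) x _ τ fun p hp hpx => ?_
    by_cases hass : Associated p τ
    · exact Or.inl hass.dvd
    · exact Or.inr (h p hp (Ideal.mem_comap.mp hpx) hass)
  -- the localisation of the integral closure
  let algCC : Algebra (integralClosure A L) (integralClosure R L) :=
    (RegLocal.integralClosureMap (A := A) (L := L) R).toAlgebra
  have tower2 : IsScalarTower (integralClosure A L) (integralClosure R L) L :=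
    IsScalarTower.of_algebraMap_eq fun c => rfl
  have tower3 : IsScalarTower A (integralClosure A L) (integralClosure R L) :=
    IsScalarTower.of_algebraMap_eq fun a => Subtype.ext rfl
  have hLL : IsLocalization (Algebra.algebraMapSubmonoid L x.primeCompl) L := by
    apply IsLocalization.self
    rintro _ ⟨y, hy, rfl⟩
    exact hunit ⟨y, hy⟩
  have hloc' : IsLocalization (Algebra.algebraMapSubmonoid (integralClosure A L) x.primeCompl)
      (integralClosure R L) :=
    IsLocalization.integralClosure (S := L) (Rf := R) (Sf := L) x.primeCompl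
  have hπeq : algebraMap (integralClosure A L) (integralClosure R L)
      (algebraMap A (integralClosure A L) π) =
      algebraMap R (integralClosure R L) (algebraMap A R π) := by
    apply Subtype.ext
    change algebraMap A L π = algebraMap R L (algebraMap A R π)
    rw [← IsScalarTower.algebraMap_apply]
  -- the local statement
  have hReg' : ∀ M' : Ideal (integralClosure R L), M'.IsMaximal →
      algebraMap (integralClosure A L) (integralClosure R L)
        (algebraMap A (integralClosure A L) π) ∈ M' →
      RegNB.RegAt (algebraMap (integralClosure A L) (integralClosure R L)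
        (algebraMap A (integralClosure A L) π)) M' := by
    intro M' hM' _
    rw [hπeq]
    exact regAt_local R K L (algebraMap A R π) (algebraMap A R τ) hπ' hτ' hπτ' hmax' hchar' hdisc
      M' hM'
  refine RegNB.regAt_of_isLocalization (C' := integralClosure R L)
    (Algebra.algebraMapSubmonoid (integralClosure A L) x.primeCompl)
    (algebraMap A (integralClosure A L) π) hReg' M hM ?_ hπM
  rw [Set.disjoint_left]
  rintro _ ⟨y, hy, rfl⟩ hxM
  exact hy (Ideal.mem_comap.mpr hxM)

end Fermat.Agent.S30.Normal.RegBranch
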