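import Mathlib
import Fermat.Agent.S30.Model.ChartInf
import Fermat.Agent.S30.Model.SFN.Basic

/-!
# Normality of the special fibre: the chart at infinity only matters over `u = ∞`

Twin of `ChartInf.ldAt_inf_of_ldAt_zero` for `SFN.NormAt`.  `C0`, `Cinf` the integral closures of
`O[u]`, `O[u⁻¹]` in `L`.  If the special fibre of `C0` is normal at every closed point
(`SFN.NormAt` at every maximal ideal containing `π`), then the special fibre of `Cinf` is normal at
every maximal ideal **not containing `u⁻¹`** (such a point also lies on the chart `C0`).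

* `normAt_inf_of_normAt_zero` : the transfer.
-/

set_option autoImplicit false

namespace Fermat.Agent.S30.Normal.ChartInfNorm

open Fermat.Agent.S30.Model Fermat.Agent.S30.Model.GlueChart Fermat.Agent.S30.Model.ChartInf

variable {O L : Type*} [CommRing O] [Field L] [Algebra O L]

/-- The homogenisation identity for one term of an integral relation. -/
theorem term_identity (u a b c : L) (K k e : ℕ) :
    u ^ (K * e) * c * (u ^ (2 * K) * a) ^ k * (u ^ K * b) ^ e =
      u ^ (2 * K * (k + e)) * (c * a ^ k * b ^ e) := by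
  ring

/-- A uniform exponent for finitely many elements of the chart at infinity. -/
theorem exists_forall_lt_isIntegral (u : L) (hu : u ≠ 0) (n : ℕ)
    (c : ℕ → integralClosure (Algebra.adjoin O ({u⁻¹} : Set L)) L) :
    ∃ m : ℕ, ∀ k < n, ∀ N, m ≤ N →
      IsIntegral (Algebra.adjoin O ({u} : Set L)) (u ^ N * (c k : L)) := by
  induction n with
  | zero => exact ⟨0, fun k hk => absurd hk (Nat.not_lt_zero k)⟩
  | succ n ih =>
    obtain ⟨m, hm⟩ := ih
    obtain ⟨m', hm'⟩ := exists_forall_ge_isIntegral u hu (c n : L)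
      (isIntegral_overlap_of_inf u (c n).2)
    refine ⟨max m m', fun k hk N hN => ?_⟩
    rcases Nat.lt_succ_iff_lt_or_eq.mp hk with h | rfl
    · exact hm k h N ((le_max_left _ _).trans hN)
    · exact hm' N ((le_max_right _ _).trans hN)

/-- **Transfer of `SFN.NormAt` from the chart `C0` to the chart at infinity**, at the maximal
ideals not containing `u⁻¹`. -/
theorem normAt_inf_of_normAt_zero (π : O) (u : L) (hu : u ≠ 0)
    (h0 : ∀ M : Ideal (integralClosure (Algebra.adjoin O ({u} : Set L)) L), M.IsMaximal →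
      piElt (Algebra.adjoin O ({u} : Set L)) π ∈ M →
      SFN.NormAt (piElt (Algebra.adjoin O ({u} : Set L)) π) M)
    (M : Ideal (integralClosure (Algebra.adjoin O ({u⁻¹} : Set L)) L)) (hM : M.IsMaximal)
    (hπM : piElt (Algebra.adjoin O ({u⁻¹} : Set L)) π ∈ M) (htM : tInf u ∉ M) :
    SFN.NormAt (piElt (Algebra.adjoin O ({u⁻¹} : Set L)) π) M := by
  classical
  have hMp : M.IsPrime := hM.isPrime
  intro a b n c hdiv
  -- the case `n = 0`: `π` divides `1`
  rcases Nat.eq_zero_or_pos n with rfl | hn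
  · refine ⟨1, fun h1 => hM.ne_top ((Ideal.eq_top_iff_one M).mpr h1), 0, ?_⟩
    have h1 : piElt (Algebra.adjoin O ({u⁻¹} : Set L)) π ∣ 1 := by
      simpa using hdiv
    exact h1.trans (one_dvd _)
  set P := contract u hu M with hP
  -- `P` is proper and contains `π`
  have hPne : P ≠ ⊤ := by
    intro h
    have h1 : (1 : integralClosure (Algebra.adjoin O ({u} : Set L)) L) ∈ P := by
      rw [h]; exact Submodule.mem_top
    obtain ⟨j, y, hy, hmem⟩ := (mem_contract u hu M 1).mp h1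
    have e : y = tInf u ^ j := by
      apply Subtype.ext
      rw [hy, Subalgebra.coe_pow, coe_tInf, Subalgebra.coe_one, mul_one]
    rw [e] at hmem
    exact htM (hMp.mem_of_pow_mem j hmem)
  obtain ⟨M0, hM0, hPM0⟩ := Ideal.exists_le_maximal P hPne
  have hπP : piElt (Algebra.adjoin O ({u} : Set L)) π ∈ P := by
    rw [hP, mem_contract]
    exact ⟨0, piElt (Algebra.adjoin O ({u⁻¹} : Set L)) π,
      by rw [pow_zero, one_mul, coe_piElt, coe_piElt], hπM⟩
  obtain ⟨w, hw, habw⟩ := (piElt_dvd_iff _ π _).mp hdiv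
  -- move everything to the chart `C0`
  obtain ⟨ka, hka⟩ := exists_forall_ge_isIntegral u hu (a : L) (isIntegral_overlap_of_inf u a.2)
  obtain ⟨kb, hkb⟩ := exists_forall_ge_isIntegral u hu (b : L) (isIntegral_overlap_of_inf u b.2)
  obtain ⟨kw, hkw⟩ := exists_forall_ge_isIntegral u hu w (isIntegral_overlap_of_inf u hw)
  obtain ⟨kc, hkc⟩ := exists_forall_lt_isIntegral u hu n c
  obtain ⟨K, hK⟩ : ∃ K, K = max (max ka kb) (max kw kc) := ⟨_, rfl⟩
  have hKa : ka ≤ K := hK ▸ (le_max_left _ _).trans (le_max_left _ _)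
  have hKb : kb ≤ K := hK ▸ (le_max_right _ _).trans (le_max_left _ _)
  have hKw : kw ≤ K := hK ▸ (le_max_left _ _).trans (le_max_right _ _)
  have hKc : kc ≤ K := hK ▸ (le_max_right _ _).trans (le_max_right _ _)
  have ha0 : IsIntegral (Algebra.adjoin O ({u} : Set L)) (u ^ (2 * K) * (a : L)) :=
    hka _ (hKa.trans (by omega))
  have hb0 : IsIntegral (Algebra.adjoin O ({u} : Set L)) (u ^ K * (b : L)) := hkb _ hKb
  have hc0 : ∀ k, k < n →
      IsIntegral (Algebra.adjoin O ({u} : Set L)) (u ^ (K * (n - k)) * (c k : L)) := by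
    intro k hk
    refine hkc k hk _ (hKc.trans ?_)
    exact Nat.le_mul_of_pos_right K (by omega)
  have hw0 : IsIntegral (Algebra.adjoin O ({u} : Set L)) (u ^ (2 * K * n) * w) := by
    refine hkw _ (hKw.trans ?_)
    calc K ≤ K * n := Nat.le_mul_of_pos_right K hn
      _ ≤ 2 * K * n := by nlinarith
  let a0 : integralClosure (Algebra.adjoin O ({u} : Set L)) L := ⟨u ^ (2 * K) * a, ha0⟩
  let b0 : integralClosure (Algebra.adjoin O ({u} : Set L)) L := ⟨u ^ K * b, hb0⟩
  let c0 : ℕ → integralClosure (Algebra.adjoin O ({u} : Set L)) L := fun k =>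
    if hk : k < n then ⟨u ^ (K * (n - k)) * c k, hc0 k hk⟩ else 0
  have hrel0 : piElt (Algebra.adjoin O ({u} : Set L)) π ∣
      a0 ^ n + ∑ k ∈ Finset.range n, c0 k * a0 ^ k * b0 ^ (n - k) := by
    rw [piElt_dvd_iff]
    refine ⟨u ^ (2 * K * n) * w, hw0, ?_⟩
    have hsum : ((∑ k ∈ Finset.range n, c0 k * a0 ^ k * b0 ^ (n - k) :
        integralClosure (Algebra.adjoin O ({u} : Set L)) L) : L) =
        u ^ (2 * K * n) * ∑ k ∈ Finset.range n, (c k : L) * (a : L) ^ k * (b : L) ^ (n - k) := by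
      rw [AddSubmonoidClass.coe_finsetSum, Finset.mul_sum]
      refine Finset.sum_congr rfl fun k hk => ?_
      have hkn : k < n := Finset.mem_range.mp hk
      have hc0k : ((c0 k : integralClosure (Algebra.adjoin O ({u} : Set L)) L) : L) =
          u ^ (K * (n - k)) * (c k : L) := by
        simp only [c0, dif_pos hkn]
      rw [Subalgebra.coe_mul, Subalgebra.coe_mul, Subalgebra.coe_pow, Subalgebra.coe_pow, hc0k]
      show u ^ (K * (n - k)) * (c k : L) * (u ^ (2 * K) * (a : L)) ^ k *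
        (u ^ K * (b : L)) ^ (n - k) = _
      rw [term_identity, Nat.add_sub_cancel' hkn.le]
    have habw' : (a : L) ^ n + ∑ k ∈ Finset.range n, (c k : L) * (a : L) ^ k * (b : L) ^ (n - k) =
        algebraMap O L π * w := by
      rw [← habw]
      simp only [Subalgebra.coe_add, Subalgebra.coe_pow, AddSubmonoidClass.coe_finsetSum,
        Subalgebra.coe_mul]
    rw [Subalgebra.coe_add, hsum, Subalgebra.coe_pow]
    show (u ^ (2 * K) * (a : L)) ^ n + _ = _
    calc (u ^ (2 * K) * (a : L)) ^ n +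
          u ^ (2 * K * n) * ∑ k ∈ Finset.range n, (c k : L) * (a : L) ^ k * (b : L) ^ (n - k)
        = u ^ (2 * K * n) * ((a : L) ^ n +
            ∑ k ∈ Finset.range n, (c k : L) * (a : L) ^ k * (b : L) ^ (n - k)) := by
          rw [mul_pow, ← pow_mul, mul_add]
      _ = algebraMap O L π * (u ^ (2 * K * n) * w) := by rw [habw']; ring
  obtain ⟨s, hsM0, y, hsy⟩ := h0 M0 hM0 (hPM0 hπP) a0 b0 n c0 hrel0
  have hsP : s ∉ P := fun h => hsM0 (hPM0 h)
  obtain ⟨d, hd, hsd⟩ := (piElt_dvd_iff _ π _).mp hsy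
  have hsd' : (s : L) * (u ^ (2 * K) * (a : L)) - u ^ K * (b : L) * (y : L) =
      algebraMap O L π * d := by
    rw [← hsd]
    rfl
  -- back to the chart at infinity
  obtain ⟨ms, hms⟩ := exists_forall_ge_isIntegral_inv u hu (s : L)
    (isIntegral_overlap_of_zero u s.2)
  obtain ⟨my, hmy⟩ := exists_forall_ge_isIntegral_inv u hu (y : L)
    (isIntegral_overlap_of_zero u y.2)
  obtain ⟨md, hmd⟩ := exists_forall_ge_isIntegral_inv u hu d (isIntegral_overlap_of_zero u hd)
  obtain ⟨N, hN⟩ : ∃ N, N = max ms (max my md) := ⟨_, rfl⟩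
  have hNs : ms ≤ N := hN ▸ le_max_left _ _
  have hNy : my ≤ N := hN ▸ (le_max_left _ _).trans (le_max_right _ _)
  have hNd : md ≤ N := hN ▸ (le_max_right _ _).trans (le_max_right _ _)
  have hs' := hms N hNs
  have hy' := hmy (K + N) (hNy.trans (Nat.le_add_left _ _))
  have hd' := hmd (2 * K + N) (hNd.trans (Nat.le_add_left _ _))
  refine ⟨⟨u⁻¹ ^ N * s, hs'⟩, ?_, ⟨u⁻¹ ^ (K + N) * y, hy'⟩, ?_⟩
  · intro hmem
    exact hsP ((mem_contract u hu M s).mpr ⟨N, ⟨u⁻¹ ^ N * s, hs'⟩, rfl, hmem⟩)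
  · rw [piElt_dvd_iff]
    refine ⟨u⁻¹ ^ (2 * K + N) * d, hd', ?_⟩
    rw [Subalgebra.coe_sub, Subalgebra.coe_mul, Subalgebra.coe_mul]
    show u⁻¹ ^ N * (s : L) * (a : L) - (b : L) * (u⁻¹ ^ (K + N) * (y : L)) = _
    have huK : u⁻¹ ^ K * u ^ K = 1 := by
      rw [← mul_pow, inv_mul_cancel₀ hu, one_pow]
    have hu2K : u⁻¹ ^ (2 * K) * u ^ (2 * K) = 1 := by
      rw [← mul_pow, inv_mul_cancel₀ hu, one_pow]
    calc u⁻¹ ^ N * (s : L) * (a : L) - (b : L) * (u⁻¹ ^ (K + N) * (y : L))
        = u⁻¹ ^ N * ((u⁻¹ ^ (2 * K) * u ^ (2 * K)) * ((s : L) * (a : L))) -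
            u⁻¹ ^ N * u⁻¹ ^ K * ((u⁻¹ ^ K * u ^ K) * ((b : L) * (y : L))) := by
          rw [huK, hu2K, pow_add]; ring
      _ = u⁻¹ ^ (2 * K + N) *
            ((s : L) * (u ^ (2 * K) * (a : L)) - u ^ K * (b : L) * (y : L)) := by
          ring
      _ = algebraMap O L π * (u⁻¹ ^ (2 * K + N) * d) := by rw [hsd']; ring

end Fermat.Agent.S30.Normal.ChartInfNorm
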