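import Mathlib
import Fermat.Agent.S30.Normal.Dual
import Fermat.Agent.S30.Normal.TameDual
import Fermat.Agent.S34.Lib.QuotBasis

/-!
# Normality of the special fibre: the local theorem (row N6), duality form

`R` a local domain, `π, t ∈ R` with `R ⧸ (π)` a discrete valuation ring with uniformiser `t`;
`C` a finite free `R`-algebra with basis `b` and discriminant `ε * t ^ n` (`ε` a unit), tame along
`t = 0` (hypothesis `htame`, automatic in residue characteristic zero).  Then every maximal ideal
`M` of `C` is generated, locally at `M`, by `π` and one more element.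

Proof: the adjugate of the trace matrix and `htame` give elements `c j` of `C` with
`Tr (c j * b k) = t * δ_jk`; they are nilpotent modulo `t`.  Modulo `π` this is the hypothesis of
`Dual.surjective_of_dual`, so `C ⧸ π C` is a maximal order over the discrete valuation ring
`R ⧸ (π)`; a maximal order is locally principal at each maximal ideal (row N5b, `LocalGen`).
-/

set_option autoImplicit false
set_option linter.unusedSectionVars false

namespace Fermat.Agent.S30.Normal.LocalDual

open Fermat.Agent.S34.Lib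

universe w u

/-- Row N5b of the plan, as a proposition: a maximal order over a discrete valuation ring is
locally principal at every maximal ideal. -/
def LocalGen : Prop :=
  ∀ (W : Type w) [CommRing W] [IsDomain W] [IsDiscreteValuationRing W]
    (D : Type u) [CommRing D] [Algebra W D] [Module.Free W D] [Module.Finite W D],
    (∀ (D' : Type u) [CommRing D'] [Algebra W D'] [Module.Free W D'] [Module.Finite W D']
      (i : D →ₐ[W] D'), Function.Injective i → Module.finrank W D' = Module.finrank W D →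
      Function.Surjective i) →
    ∀ 𝔫 : Ideal D, 𝔫.IsMaximal →
      ∃ τ ∈ 𝔫, ∃ s : D, s ∉ 𝔫 ∧ ∀ m ∈ 𝔫, s * m ∈ Ideal.span {τ}

section family

variable {R C ι : Type*} [CommRing R] [CommRing C] [Algebra R C] [Fintype ι] [DecidableEq ι]

theorem trace_sum_smul_mul (b : Module.Basis ι R C) (a : ι → R) (k : ι) :
    Algebra.trace R C ((∑ i, a i • b i) * b k) = ∑ i, a i * Algebra.traceMatrix R b i k := by
  rw [Finset.sum_mul, map_sum]
  refine Finset.sum_congr rfl fun i _ => ?_
  rw [smul_mul_assoc, map_smul, smul_eq_mul, Algebra.traceMatrix_apply, Algebra.traceForm_apply]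

/-- The adjugate family: `Tr (d j * b k) = discr * δ_jk`. -/
theorem exists_trace_eq_discr (b : Module.Basis ι R C) :
    ∃ d : ι → C, ∀ j k, Algebra.trace R C (d j * b k) = if j = k then Algebra.discr R b else 0 := by
  refine ⟨fun j => ∑ i, (Algebra.traceMatrix R b).adjugate j i • b i, fun j k => ?_⟩
  rw [trace_sum_smul_mul]
  have h := congrFun (congrFun (Matrix.adjugate_mul (Algebra.traceMatrix R b)) j) k
  rw [Matrix.mul_apply] at h
  rw [h, Matrix.smul_apply, Matrix.one_apply, Algebra.discr_def, smul_eq_mul]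
  split_ifs <;> simp

/-- An element all of whose traces against the basis are divisible by `t ^ 2` has all its traces
divisible by `t ^ 2`. -/
theorem sq_dvd_trace_of_basis (b : Module.Basis ι R C) {t : R} (y : C)
    (hy : ∀ k, t ^ 2 ∣ Algebra.trace R C (y * b k)) (z : C) :
    t ^ 2 ∣ Algebra.trace R C (y * z) := by
  rw [← b.sum_repr z, Finset.mul_sum, map_sum]
  refine Finset.dvd_sum fun k _ => ?_
  rw [mul_smul_comm, map_smul, smul_eq_mul]
  exact Dvd.dvd.mul_left (hy k) _

/-- Dividing by `t`: from traces `t ^ (m + 1) * f k` to traces `t * f k`. -/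
theorem exists_trace_eq_mul [IsDomain R] (b : Module.Basis ι R C) {t : R} (ht0 : t ≠ 0)
    (htame : ∀ y : C, (∀ z : C, t ^ 2 ∣ Algebra.trace R C (y * z)) → algebraMap R C t ∣ y)
    (f : ι → R) (m : ℕ) :
    ∀ y : C, (∀ k, Algebra.trace R C (y * b k) = t ^ (m + 1) * f k) →
      ∃ y' : C, ∀ k, Algebra.trace R C (y' * b k) = t * f k := by
  induction m with
  | zero =>
    intro y hy
    exact ⟨y, fun k => by rw [hy k]; ring⟩
  | succ m ih =>
    intro y hy
    have h2 : ∀ k, t ^ 2 ∣ Algebra.trace R C (y * b k) := by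
      intro k
      rw [hy k]
      exact ⟨t ^ m * f k, by ring⟩
    obtain ⟨y1, rfl⟩ := htame y (sq_dvd_trace_of_basis b y h2)
    refine ih y1 fun k => ?_
    have h3 := hy k
    rw [mul_assoc, ← Algebra.smul_def, map_smul, smul_eq_mul] at h3
    apply mul_left_cancel₀ ht0
    rw [h3]; ring

/-- **The dual family.**  If the discriminant is `ε * t ^ n` and `C` is tame along `t`, there are
elements `c j` of `C` with `Tr (c j * b k) = t * δ_jk`, nilpotent modulo `t`. -/
theorem exists_dual_family [IsDomain R] (b : Module.Basis ι R C) {t : R} (ht0 : t ≠ 0)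
    (n : ℕ) (ε : R) (hε : IsUnit ε) (hdisc : Algebra.discr R b = ε * t ^ n)
    (htame : 0 < n → (Ideal.span {t}).IsPrime ∧ CharZero (R ⧸ Ideal.span {t}) ∧
       ∀ y : C, (∀ z : C, t ^ 2 ∣ Algebra.trace R C (y * z)) → algebraMap R C t ∣ y) :
    ∃ c : ι → C, (∀ j k, Algebra.trace R C (c j * b k) = if j = k then t else 0) ∧
      ∀ j, ∃ k : ℕ, algebraMap R C t ∣ c j ^ k := by
  obtain ⟨η, hη⟩ := hε.exists_left_inv
  obtain ⟨d, hd⟩ := exists_trace_eq_discr b
  rcases Nat.eq_zero_or_pos n with hn | hn
  · -- unit discriminant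
    subst hn
    rw [pow_zero, mul_one] at hdisc
    refine ⟨fun j => (t * η) • d j, fun j k => ?_, fun j => ⟨1, ?_⟩⟩
    · rw [smul_mul_assoc, map_smul, smul_eq_mul, hd, hdisc]
      split_ifs
      · rw [mul_assoc, hη, mul_one]
      · rw [mul_zero]
    · show algebraMap R C t ∣ ((t * η) • d j) ^ 1
      rw [pow_one, mul_smul, Algebra.smul_def]
      exact Dvd.intro _ rfl
  · obtain ⟨hI, hchar, ht⟩ := htame hn
    obtain ⟨m, rfl⟩ : ∃ m, n = m + 1 := ⟨n - 1, by omega⟩
    have hex : ∀ j, ∃ y' : C, ∀ k, Algebra.trace R C (y' * b k) = t * (if j = k then ε else 0) := by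
      intro j
      refine exists_trace_eq_mul b ht0 ht _ m (d j) fun k => ?_
      rw [hd, hdisc]
      split_ifs
      · ring
      · rw [mul_zero]
    choose y' hy' using hex
    have hc : ∀ j k, Algebra.trace R C (η • y' j * b k) = if j = k then t else 0 := by
      intro j k
      rw [smul_mul_assoc, map_smul, smul_eq_mul, hy']
      split_ifs
      · rw [mul_comm t ε, ← mul_assoc, hη, one_mul]
      · rw [mul_zero, mul_zero]
    refine ⟨fun j => η • y' j, hc, fun j => ?_⟩
    refine TameDual.exists_pow_dvd_of_trace_dvd b hI _ fun z => ?_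
    rw [← b.sum_repr z, Finset.mul_sum, map_sum]
    refine Finset.dvd_sum fun k _ => ?_
    rw [mul_smul_comm, map_smul, smul_eq_mul, hc]
    split_ifs
    · exact Dvd.intro_left _ rfl
    · rw [mul_zero]; exact dvd_zero _

end family

section main

universe uR uC

variable {R : Type uR} [CommRing R] [IsDomain R] [IsLocalRing R]
variable {C : Type uC} [CommRing C] [Algebra R C] {ι : Type*} [Fintype ι] [DecidableEq ι]

/-- The reduction `C ⧸ π C` is a maximal order over `R ⧸ (π)`: it has no proper finite free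
over-order of the same rank. -/
theorem surjective_of_discr_quotient {π t : R} [IsDomain (R ⧸ Ideal.span {π})]
    (hprime : Prime (Ideal.Quotient.mk (Ideal.span {π}) t))
    (b : Module.Basis ι R C)
    (n : ℕ) (ε : R) (hε : IsUnit ε) (hdisc : Algebra.discr R b = ε * t ^ n)
    (htame : 0 < n → (Ideal.span {t}).IsPrime ∧ CharZero (R ⧸ Ideal.span {t}) ∧
       ∀ y : C, (∀ z : C, t ^ 2 ∣ Algebra.trace R C (y * z)) → algebraMap R C t ∣ y)
    {D' : Type*} [CommRing D'] [Algebra (R ⧸ Ideal.span {π}) D']
    [Module.Free (R ⧸ Ideal.span {π}) D'] [Module.Finite (R ⧸ Ideal.span {π}) D']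
    (i : (C ⧸ (Ideal.span {π}).map (algebraMap R C)) →ₐ[R ⧸ Ideal.span {π}] D')
    (hi : Function.Injective i)
    (hrank : Module.finrank (R ⧸ Ideal.span {π}) D' = Fintype.card ι) :
    Function.Surjective i := by
  have ht0 : t ≠ 0 := by
    rintro rfl
    exact hprime.ne_zero (map_zero _)
  obtain ⟨c, hc, hnil⟩ := exists_dual_family b ht0 n ε hε hdisc htame
  refine Dual.surjective_of_dual hprime (QuotBasis.quotBasis (Ideal.span {π}) b)
    (fun j => Ideal.Quotient.mk _ (c j)) (fun j k => ?_) (fun j => ?_) i hi hrank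
  · rw [QuotBasis.quotBasis_apply, ← map_mul, QuotBasis.trace_quotient_mk _ b, hc]
    split_ifs
    · rfl
    · exact map_zero _
  · obtain ⟨k, e, he⟩ := hnil j
    refine ⟨k, Ideal.Quotient.mk _ e, ?_⟩
    rw [← map_pow, he, map_mul]
    rfl

/-- **The local theorem (row N6)**, given row N5b (`LocalGen`). -/
theorem exists_generator_of_discr_of_localGen (hN5b : LocalGen.{uR, uC})
    {π t : R} [IsDomain (R ⧸ Ideal.span {π})] [IsDiscreteValuationRing (R ⧸ Ideal.span {π})]
    (hπ : π ∈ IsLocalRing.maximalIdeal R)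
    (hunif : Irreducible (Ideal.Quotient.mk (Ideal.span {π}) t))
    (b : Module.Basis ι R C)
    (n : ℕ) (ε : R) (hε : IsUnit ε) (hdisc : Algebra.discr R b = ε * t ^ n)
    (htame : 0 < n → (Ideal.span {t}).IsPrime ∧ CharZero (R ⧸ Ideal.span {t}) ∧
       ∀ y : C, (∀ z : C, t ^ 2 ∣ Algebra.trace R C (y * z)) → algebraMap R C t ∣ y)
    (M : Ideal C) (hM : M.IsMaximal) :
    ∃ τ ∈ M, ∃ s : C, s ∉ M ∧ ∀ m ∈ M, s * m ∈ Ideal.span {algebraMap R C π, τ} := by
  classical
  set I : Ideal R := Ideal.span {π} with hI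
  set J : Ideal C := I.map (algebraMap R C) with hJ
  have hJspan : J = Ideal.span {algebraMap R C π} := by
    rw [hJ, hI, Ideal.map_span, Set.image_singleton]
  let bq := QuotBasis.quotBasis I b
  have : Module.Free (R ⧸ I) (C ⧸ J) := Module.Free.of_basis bq
  have : Module.Finite (R ⧸ I) (C ⧸ J) := Module.Finite.of_basis bq
  have : Module.Finite R C := Module.Finite.of_basis b
  -- `π` lies in `M`
  have hπM : algebraMap R C π ∈ M := by
    have := hM
    have h1 : (M.comap (algebraMap R C)).IsMaximal :=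
      Ideal.isMaximal_comap_of_isIntegral_of_isMaximal (R := R) M
    have h2 := IsLocalRing.eq_maximalIdeal h1
    have h3 : π ∈ M.comap (algebraMap R C) := by rw [h2]; exact hπ
    exact h3
  have hJM : J ≤ M := by
    rw [hJspan, Ideal.span_le, Set.singleton_subset_iff]
    exact hπM
  -- the maximal ideal of the quotient
  have hsurj : Function.Surjective (Ideal.Quotient.mk J) := Ideal.Quotient.mk_surjective
  have hmem : ∀ x : C, Ideal.Quotient.mk J x ∈ M.map (Ideal.Quotient.mk J) → x ∈ M := by
    intro x hx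
    obtain ⟨y, hy, hxy⟩ := (Ideal.mem_map_iff_of_surjective _ hsurj).mp hx
    have h1 : x - y ∈ J := by
      rw [← Ideal.Quotient.eq_zero_iff_mem, map_sub, hxy, sub_self]
    have h2 : x = (x - y) + y := by ring
    rw [h2]
    exact M.add_mem (hJM h1) hy
  have h𝔫 : (M.map (Ideal.Quotient.mk J)).IsMaximal := by
    rcases Ideal.map_eq_top_or_isMaximal_of_surjective _ hsurj hM with h | h
    · exfalso
      have h1 : Ideal.Quotient.mk J (1 : C) ∈ M.map (Ideal.Quotient.mk J) := by
        rw [h]; exact Submodule.mem_top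
      exact hM.ne_top ((Ideal.eq_top_iff_one M).mpr (hmem 1 h1))
    · exact h
  have hmax : ∀ (D' : Type uC) [CommRing D'] [Algebra (R ⧸ I) D'] [Module.Free (R ⧸ I) D']
      [Module.Finite (R ⧸ I) D'] (i : (C ⧸ J) →ₐ[R ⧸ I] D'), Function.Injective i →
      Module.finrank (R ⧸ I) D' = Module.finrank (R ⧸ I) (C ⧸ J) → Function.Surjective i := by
    intro D' _ _ _ _ i hi hrank
    rw [Module.finrank_eq_card_basis bq] at hrank
    exact surjective_of_discr_quotient hunif.prime b n ε hε hdisc htame i hi hrank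
  obtain ⟨τ', hτ', s', hs', hgen⟩ := hN5b (R ⧸ I) (C ⧸ J) hmax _ h𝔫
  obtain ⟨τ, rfl⟩ := hsurj τ'
  obtain ⟨s, rfl⟩ := hsurj s'
  refine ⟨τ, hmem τ hτ', s, fun hs => hs' (Ideal.mem_map_of_mem _ hs), fun m hm => ?_⟩
  have h1 := hgen _ (Ideal.mem_map_of_mem (Ideal.Quotient.mk J) hm)
  obtain ⟨a', ha'⟩ := Ideal.mem_span_singleton'.mp h1
  obtain ⟨a, rfl⟩ := hsurj a'
  have h2 : s * m - a * τ ∈ J := by
    rw [← Ideal.Quotient.eq_zero_iff_mem, map_sub, map_mul, map_mul, ha', sub_self]
  rw [hJspan] at h2
  obtain ⟨e, he⟩ := Ideal.mem_span_singleton'.mp h2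
  rw [Ideal.mem_span_pair]
  exact ⟨e, a, by rw [he]; ring⟩

end main

end Fermat.Agent.S30.Normal.LocalDual
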