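import Mathlib

/-!
# A maximal order over a DVR is locally principal at every maximal ideal (row N5b, Alt twin)

Literal statement of `Fermat.Agent.S30.Normal.Plan.exists_local_generator`
(`Fermat/Agent/S30/Normal/Plan.lean`), Mathlib only.

Proof (no Dedekind plumbing, no structure theory).  `t` a uniformiser of `W`.
* `dvd_of_forall_mul_mem` : the ring of multipliers `{z ∈ D[1/t] | z 𝔫 ⊆ 𝔫}` is a finite free
  `W`-algebra containing `D`, of the same rank (`D ⊆ D' ⊆ t⁻¹ D`), so it equals `D` by maximality.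
* `exists_not_dvd_forall_dvd` : `D / t D` is an Artinian ring, so the proper ideal `𝔫 / t D` is
  killed by a nonzero element (Nakayama on the stable power of `𝔫`).
* Hence there is `m₁ ∈ 𝔫` with `x m₁ = t d`, `d ∉ 𝔫`; with `a d + m₀ = 1` take `τ = m₁`,
  `s = a d`.
-/

set_option autoImplicit false

namespace Fermat.Agent.S30.Normal.LocalGenAlt

universe u


/-- In an Artinian commutative ring, every proper ideal is killed by a nonzero element. -/
theorem exists_ne_zero_forall_mul_eq_zero {A : Type*} [CommRing A] [IsArtinianRing A]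
    (J : Ideal A) (hJ : J ≠ ⊤) : ∃ x : A, x ≠ 0 ∧ ∀ m ∈ J, x * m = 0 := by
  classical
  obtain ⟨n, hn⟩ := IsArtinian.monotone_stabilizes
    (⟨fun j => OrderDual.toDual (J ^ j), fun a b hab => Ideal.pow_le_pow_right hab⟩ :
      ℕ →o (Ideal A)ᵒᵈ)
  have hstab : J ^ n = J ^ (n + 1) := congrArg OrderDual.ofDual (hn (n + 1) (Nat.le_succ n))
  have hle : J ^ n ≤ J • J ^ n := by
    rw [smul_eq_mul, ← pow_succ', ← hstab]
  obtain ⟨r, hr1, hr⟩ := Submodule.exists_sub_one_mem_and_smul_eq_zero_of_fg_of_le_smul J (J ^ n)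
    (IsNoetherian.noetherian _) hle
  have hr_ne : r ≠ 0 := by
    rintro rfl
    apply hJ
    rw [Ideal.eq_top_iff_one]
    have h : (0 : A) - 1 ∈ J := hr1
    simpa using J.neg_mem h
  have hex : ∃ j, ∀ z ∈ J ^ j, r * z = 0 := ⟨n, fun z hz => by simpa using hr z hz⟩
  have hfind := Nat.find_spec hex
  rcases Nat.eq_zero_or_pos (Nat.find hex) with h0 | hpos
  · exfalso
    rw [h0] at hfind
    have := hfind 1 (by simp)
    exact hr_ne (by simpa using this)
  · obtain ⟨k, hk⟩ : ∃ k, Nat.find hex = k + 1 := ⟨Nat.find hex - 1, by omega⟩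
    have hnot := Nat.find_min hex (show k < Nat.find hex by omega)
    push Not at hnot
    obtain ⟨z, hz, hrz⟩ := hnot
    refine ⟨r * z, hrz, fun m hm => ?_⟩
    rw [hk] at hfind
    have hzm : z * m ∈ J ^ (k + 1) := by
      rw [pow_succ]
      exact Ideal.mul_mem_mul hz hm
    rw [mul_assoc]
    exact hfind _ hzm


section Multiplier

variable {W : Type*} [CommRing W]
variable {D : Type u} [CommRing D] [Algebra W D]

/-- The ring of multipliers of the ideal `𝔫` inside `D[1/t]`. -/
def multRing (t : D) (𝔫 : Ideal D) : Subalgebra W (Localization.Away t) where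
  carrier := {z | ∀ m ∈ 𝔫, ∃ m' ∈ 𝔫,
    z * algebraMap D (Localization.Away t) m = algebraMap D (Localization.Away t) m'}
  mul_mem' := fun {a b} ha hb m hm => by
    obtain ⟨m₁, hm₁, h₁⟩ := hb m hm
    obtain ⟨m₂, hm₂, h₂⟩ := ha m₁ hm₁
    exact ⟨m₂, hm₂, by rw [mul_assoc, h₁, h₂]⟩
  one_mem' := fun m hm => ⟨m, hm, one_mul _⟩
  add_mem' := fun {a b} ha hb m hm => by
    obtain ⟨m₁, hm₁, h₁⟩ := ha m hm
    obtain ⟨m₂, hm₂, h₂⟩ := hb m hm
    exact ⟨m₁ + m₂, 𝔫.add_mem hm₁ hm₂, by rw [add_mul, h₁, h₂, map_add]⟩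
  zero_mem' := fun m _ => ⟨0, 𝔫.zero_mem, by simp⟩
  algebraMap_mem' := fun w m hm => ⟨algebraMap W D w * m, 𝔫.mul_mem_left _ hm, by
    rw [IsScalarTower.algebraMap_apply W D (Localization.Away t), map_mul]⟩

theorem mem_multRing {t : D} {𝔫 : Ideal D} {z : Localization.Away t} :
    z ∈ multRing (W := W) t 𝔫 ↔ ∀ m ∈ 𝔫, ∃ m' ∈ 𝔫,
      z * algebraMap D (Localization.Away t) m = algebraMap D (Localization.Away t) m' :=
  Iff.rfl

end Multiplier

section Main

variable {W : Type*} [CommRing W] [IsDomain W] [IsDiscreteValuationRing W]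
variable {D : Type u} [CommRing D] [Algebra W D] [Module.Free W D] [Module.Finite W D]

/-- **Maximal orders have no proper multiplier rings**: if `x 𝔫 ⊆ t 𝔫` then `t ∣ x`. -/
theorem dvd_of_forall_mul_mem
    (hmax : ∀ (D' : Type u) [CommRing D'] [Algebra W D'] [Module.Free W D'] [Module.Finite W D']
      (i : D →ₐ[W] D'), Function.Injective i → Module.finrank W D' = Module.finrank W D →
      Function.Surjective i)
    (t : W) (ht : t ≠ 0) (𝔫 : Ideal D) (htn : algebraMap W D t ∈ 𝔫) (x : D)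
    (hx : ∀ m ∈ 𝔫, ∃ m' ∈ 𝔫, x * m = algebraMap W D t * m') : algebraMap W D t ∣ x := by
  classical
  set tD : D := algebraMap W D t with htD
  have hnzd : ∀ d : D, tD * d = 0 → d = 0 := by
    intro d hd
    rw [htD, ← Algebra.smul_def] at hd
    exact (smul_eq_zero.1 hd).resolve_left ht
  have hmem : tD ∈ nonZeroDivisors D := by
    rw [mem_nonZeroDivisors_iff_right]
    intro d hd
    exact hnzd d (by rwa [mul_comm] at hd)
  let L := Localization.Away tD
  let ι : D →+* L := algebraMap D L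
  have hι : Function.Injective ι :=
    IsLocalization.injective L (Submonoid.powers_le.2 hmem)
  obtain ⟨v, hv⟩ : IsUnit (ι tD) := IsLocalization.Away.algebraMap_isUnit tD
  let D' : Subalgebra W L := multRing (W := W) tD 𝔫
  let i : D →ₐ[W] D' := (IsScalarTower.toAlgHom W D L).codRestrict D'
    (fun d m hm => ⟨d * m, 𝔫.mul_mem_left d hm, (map_mul ι d m).symm⟩)
  have hi : Function.Injective i := by
    intro a b hab
    apply hι
    exact congrArg (fun z : D' => (z : L)) hab
  -- the `W`-linear embedding `d ↦ d / t`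
  let φ : D →ₗ[W] L :=
    (LinearMap.mulLeft W ((↑v⁻¹ : L))).comp (IsScalarTower.toAlgHom W D L).toLinearMap
  have hφ_apply : ∀ d, φ d = ↑v⁻¹ * ι d := fun d => rfl
  have hφ : Function.Injective φ := by
    intro a b hab
    apply hι
    rw [hφ_apply, hφ_apply] at hab
    exact (Units.mul_right_inj _).1 hab
  have hle : Subalgebra.toSubmodule D' ≤ LinearMap.range φ := by
    intro z hz
    obtain ⟨m', _, h⟩ := hz tD htn
    refine ⟨m', ?_⟩
    rw [hφ_apply, ← h, ← hv, mul_comm z, ← mul_assoc, Units.inv_mul, one_mul]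
  have hN : IsNoetherian W (LinearMap.range φ) :=
    isNoetherian_of_linearEquiv (LinearEquiv.ofInjective φ hφ)
  have hN' : IsNoetherian W (Subalgebra.toSubmodule D') :=
    isNoetherian_of_injective (Submodule.inclusion hle) (Submodule.inclusion_injective hle)
  let ψ : D' →ₗ[W] D :=
    (LinearEquiv.ofInjective φ hφ).symm.toLinearMap.comp (Submodule.inclusion hle)
  have hψ : Function.Injective ψ :=
    (LinearEquiv.ofInjective φ hφ).symm.injective.comp (Submodule.inclusion_injective hle)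
  have hfin : Module.Finite W D' :=
    (inferInstance : Module.Finite W (Subalgebra.toSubmodule D'))
  have hntf : Module.IsTorsionFree W D' :=
    Function.Injective.moduleIsTorsionFree ψ hψ (fun c z => map_smul ψ c z)
  have hfree : Module.Free W D' := Module.free_of_finite_type_torsion_free'
  have hrank : Module.finrank W D' = Module.finrank W D :=
    le_antisymm (LinearMap.finrank_le_finrank_of_injective hψ)
      (LinearMap.finrank_le_finrank_of_injective (f := i.toLinearMap) hi)
  have hsurj := hmax D' i hi hrank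
  have hz : (↑v⁻¹ * ι x : L) ∈ D' := by
    intro m hm
    obtain ⟨m', hm', h⟩ := hx m hm
    refine ⟨m', hm', ?_⟩
    have h2 : ι x * ι m = ι tD * ι m' := by rw [← map_mul, h, map_mul]
    rw [mul_assoc, h2, ← hv, ← mul_assoc, Units.inv_mul, one_mul]
  obtain ⟨d, hd⟩ := hsurj ⟨_, hz⟩
  refine ⟨d, hι ?_⟩
  have hd' : ι d = ↑v⁻¹ * ι x := by
    exact congrArg (fun z : D' => (z : L)) hd
  rw [map_mul, hd', ← hv, ← mul_assoc, Units.mul_inv, one_mul]

omit [Module.Free W D] in
/-- There is `x ∉ t D` with `x 𝔫 ⊆ t D` (`D / t D` is Artinian). -/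
theorem exists_not_dvd_forall_dvd (t : W) (ht : Irreducible t) (𝔫 : Ideal D) (h𝔫 : 𝔫 ≠ ⊤)
    (htn : algebraMap W D t ∈ 𝔫) :
    ∃ x : D, ¬ algebraMap W D t ∣ x ∧ ∀ m ∈ 𝔫, algebraMap W D t ∣ x * m := by
  let mR : Ideal D := (IsLocalRing.maximalIdeal W).map (algebraMap W D)
  have hmR : mR = Ideal.span {algebraMap W D t} := by
    rw [show mR = (IsLocalRing.maximalIdeal W).map (algebraMap W D) from rfl,
      (IsDiscreteValuationRing.irreducible_iff_uniformizer t).1 ht, Ideal.map_span,
      Set.image_singleton]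
  have hle : mR ≤ 𝔫 := by
    rw [hmR, Ideal.span_singleton_le_iff_mem]
    exact htn
  have hfin : Module.Finite (W ⧸ IsLocalRing.maximalIdeal W) (D ⧸ mR) :=
    Module.Finite.of_restrictScalars_finite W _ _
  have hartW : IsArtinianRing (W ⧸ IsLocalRing.maximalIdeal W) := by
    let : Field (W ⧸ IsLocalRing.maximalIdeal W) := Ideal.Quotient.field _
    infer_instance
  have hart : IsArtinianRing (D ⧸ mR) :=
    IsArtinianRing.of_finite (W ⧸ IsLocalRing.maximalIdeal W) (D ⧸ mR)
  let J : Ideal (D ⧸ mR) := 𝔫.map (Ideal.Quotient.mk mR)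
  have hJ : J ≠ ⊤ := by
    intro h
    apply h𝔫
    have h2 := congrArg (Ideal.comap (Ideal.Quotient.mk mR)) h
    rw [Ideal.comap_map_of_surjective _ Ideal.Quotient.mk_surjective, Ideal.comap_top,
      ← RingHom.ker_eq_comap_bot, Ideal.mk_ker, sup_of_le_left hle] at h2
    exact h2
  obtain ⟨xbar, hx0, hx⟩ := exists_ne_zero_forall_mul_eq_zero J hJ
  obtain ⟨x, rfl⟩ := Ideal.Quotient.mk_surjective xbar
  refine ⟨x, ?_, fun m hm => ?_⟩
  · intro hdvd
    apply hx0
    rw [Ideal.Quotient.eq_zero_iff_mem, hmR, Ideal.mem_span_singleton]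
    exact hdvd
  · have h3 := hx (Ideal.Quotient.mk mR m) (Ideal.mem_map_of_mem _ hm)
    rw [← map_mul, Ideal.Quotient.eq_zero_iff_mem, hmR, Ideal.mem_span_singleton] at h3
    exact h3

end Main

/-- **Row N5b** (literal statement of `Normal/Plan.lean`): a maximal order over a DVR is locally
principal at every maximal ideal. -/
theorem exists_local_generator {W : Type*} [CommRing W] [IsDomain W] [IsDiscreteValuationRing W]
    {D : Type u} [CommRing D] [Algebra W D] [Module.Free W D] [Module.Finite W D]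
    (hmax : ∀ (D' : Type u) [CommRing D'] [Algebra W D'] [Module.Free W D'] [Module.Finite W D']
      (i : D →ₐ[W] D'), Function.Injective i → Module.finrank W D' = Module.finrank W D →
      Function.Surjective i)
    (𝔫 : Ideal D) (h𝔫 : 𝔫.IsMaximal) :
    ∃ τ ∈ 𝔫, ∃ s : D, s ∉ 𝔫 ∧ ∀ m ∈ 𝔫, s * m ∈ Ideal.span {τ} := by
  obtain ⟨t, ht⟩ := IsDiscreteValuationRing.exists_irreducible W
  have ht0 : t ≠ 0 := ht.ne_zero
  set tD : D := algebraMap W D t with htD
  have hnzd : ∀ d : D, tD * d = 0 → d = 0 := by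
    intro d hd
    rw [htD, ← Algebra.smul_def] at hd
    exact (smul_eq_zero.1 hd).resolve_left ht0
  have htn : tD ∈ 𝔫 := by
    have hmaxc : (𝔫.comap (algebraMap W D)).IsMaximal :=
      Ideal.isMaximal_comap_of_isIntegral_of_isMaximal 𝔫
    have heq : 𝔫.comap (algebraMap W D) = IsLocalRing.maximalIdeal W :=
      IsLocalRing.eq_maximalIdeal hmaxc
    have hmem : t ∈ 𝔫.comap (algebraMap W D) := by
      rw [heq]
      exact ht.not_isUnit
    exact hmem
  obtain ⟨x, hx1, hx2⟩ := exists_not_dvd_forall_dvd t ht 𝔫 h𝔫.ne_top htn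
  have key : ∃ m1 ∈ 𝔫, ∃ d : D, d ∉ 𝔫 ∧ x * m1 = tD * d := by
    by_contra hcon
    apply hx1
    apply dvd_of_forall_mul_mem hmax t ht0 𝔫 htn x
    intro m hm
    obtain ⟨d, hd⟩ := hx2 m hm
    refine ⟨d, ?_, hd⟩
    by_contra hdn
    exact hcon ⟨m, hm, d, hdn, hd⟩
  obtain ⟨m1, hm1, d, hd, hxm1⟩ := key
  obtain ⟨a, m0, hm0, ha⟩ := h𝔫.exists_inv hd
  refine ⟨m1, hm1, a * d, ?_, fun m hm => ?_⟩
  · intro hs
    apply h𝔫.ne_top
    rw [Ideal.eq_top_iff_one, ← ha]
    exact 𝔫.add_mem hs hm0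
  · obtain ⟨e, he⟩ := hx2 m hm
    have h1 : tD * (d * m) = tD * (m1 * e) := by
      calc tD * (d * m) = (tD * d) * m := by ring
        _ = (x * m1) * m := by rw [hxm1]
        _ = m1 * (x * m) := by ring
        _ = m1 * (tD * e) := by rw [he]
        _ = tD * (m1 * e) := by ring
    have h2 : d * m = m1 * e := by
      have h3 := hnzd (d * m - m1 * e) (by rw [mul_sub, h1, sub_self])
      exact sub_eq_zero.1 h3
    rw [Ideal.mem_span_singleton]
    exact ⟨a * e, by rw [mul_assoc, h2]; ring⟩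

end Fermat.Agent.S30.Normal.LocalGenAlt
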