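import Mathlib
import Fermat.Agent.S30.Normal.Local
import Fermat.Agent.S30.Normal.TameNormal
import Fermat.Agent.S30.Model.RegNB

/-!
# The special fibre is regular at a branch point: the statement over the local ring `R = A_x`

Same binders as `Model.BranchGlue.LocalBranchStatement` (`R` a local Noetherian integrally closed
domain with maximal ideal `(π, τ)`, `R ⧸ (π)` principal, `R ⧸ (τ)` of characteristic zero, the
discriminant of the integral closure `C` of `R` in `L` dividing a power of `τ`), conclusion: every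
maximal ideal `M` of `C` is locally generated by `π` and one more element
(`exists_generator`, `regAt_local`).  NO tameness hypothesis.

Pieces (all short): `isDiscreteValuationRing_quotient` (`R ⧸ (π)` is a DVR with uniformiser
`τ`), `exists_eq_unit_mul_pow` (`d ∣ τ ^ n` ⇒ `d = unit * τ ^ m`), `charZero_quotient`; then
`TameNormal.htame_of_normal` (helper60) and `Local.exists_generator_of_discr` (N6).
-/

set_option autoImplicit false

namespace Fermat.Agent.S30.Normal.LocalReg

open Fermat.Agent.S30.Model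

section Pieces

variable {R : Type*} [CommRing R]

/-- `R ⧸ (τ)` has characteristic zero if `τ` divides no nonzero natural number. -/
theorem charZero_quotient {τ : R} (hchar : ∀ n : ℕ, n ≠ 0 → ¬ τ ∣ (n : R)) :
    CharZero (R ⧸ Ideal.span {τ}) := by
  apply charZero_of_inj_zero
  intro n hn
  by_contra hn0
  apply hchar n hn0
  rw [← map_natCast (Ideal.Quotient.mk (Ideal.span {τ})) n, Ideal.Quotient.eq_zero_iff_mem,
    Ideal.mem_span_singleton] at hn
  exact hn

/-- A divisor of a power of a prime element is a unit times a power of it. -/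
theorem exists_eq_unit_mul_pow [IsDomain R] {τ d : R} (hτ : Prime τ) (h : ∃ n : ℕ, d ∣ τ ^ n) :
    ∃ (n : ℕ) (ε : R), IsUnit ε ∧ d = ε * τ ^ n := by
  obtain ⟨n, hn⟩ := h
  obtain ⟨i, -, u, hu⟩ := (dvd_prime_pow hτ n).mp hn
  refine ⟨i, ((u⁻¹ : Rˣ) : R), Units.isUnit _, ?_⟩
  rw [← hu, mul_comm, mul_assoc, Units.mul_inv, mul_one]

variable [IsLocalRing R] {π τ : R}

/-- The maximal ideal of `R ⧸ (π)` when `𝔪_R = (π, τ)`. -/
theorem maximalIdeal_quotient [Nontrivial (R ⧸ Ideal.span {π})]
    [IsLocalRing (R ⧸ Ideal.span {π})]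
    (hmax : IsLocalRing.maximalIdeal R = Ideal.span {π, τ}) :
    IsLocalRing.maximalIdeal (R ⧸ Ideal.span {π}) =
      Ideal.span {Ideal.Quotient.mk (Ideal.span {π}) τ} := by
  have hτm : τ ∈ IsLocalRing.maximalIdeal R := by
    rw [hmax]; exact Ideal.subset_span (by simp)
  have hπm : π ∈ IsLocalRing.maximalIdeal R := by
    rw [hmax]; exact Ideal.subset_span (by simp)
  apply le_antisymm
  · intro z hz
    obtain ⟨z, rfl⟩ := Ideal.Quotient.mk_surjective z
    have hz' : z ∈ IsLocalRing.maximalIdeal R := by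
      rw [IsLocalRing.mem_maximalIdeal, mem_nonunits_iff]
      intro hu
      exact (IsLocalRing.mem_maximalIdeal _).mp hz (hu.map _)
    rw [hmax, Ideal.mem_span_pair] at hz'
    obtain ⟨a, b, hab⟩ := hz'
    rw [Ideal.mem_span_singleton]
    refine ⟨Ideal.Quotient.mk _ b, ?_⟩
    rw [← hab, map_add, map_mul, map_mul]
    have : Ideal.Quotient.mk (Ideal.span {π}) π = 0 :=
      Ideal.Quotient.eq_zero_iff_mem.mpr (Ideal.mem_span_singleton_self π)
    rw [this, mul_zero, zero_add, mul_comm]
  · rw [Ideal.span_singleton_le_iff_mem, IsLocalRing.mem_maximalIdeal, mem_nonunits_iff]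
    intro hu
    obtain ⟨c, hc⟩ := hu.exists_right_inv
    obtain ⟨c, rfl⟩ := Ideal.Quotient.mk_surjective c
    rw [← map_mul, ← map_one (Ideal.Quotient.mk (Ideal.span {π})), Ideal.Quotient.eq,
      Ideal.mem_span_singleton] at hc
    obtain ⟨e, he⟩ := hc
    have h1 : (1 : R) ∈ IsLocalRing.maximalIdeal R := by
      have : (1 : R) = τ * c - π * e := by rw [← he]; ring
      rw [this]
      exact Ideal.sub_mem _ (Ideal.mul_mem_right _ _ hτm) (Ideal.mul_mem_right _ _ hπm)
    exact (IsLocalRing.maximalIdeal.isMaximal R).ne_top ((Ideal.eq_top_iff_one _).mpr h1)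

/-- `R ⧸ (π)` is a discrete valuation ring when `𝔪_R = (π, τ)`, `π ∤ τ`, and `R ⧸ (π)` is a
principal ideal domain. -/
theorem isDiscreteValuationRing_quotient [hP : (Ideal.span {π}).IsPrime] (hπτ : ¬ π ∣ τ)
    [IsPrincipalIdealRing (R ⧸ Ideal.span {π})]
    (hmax : IsLocalRing.maximalIdeal R = Ideal.span {π, τ}) :
    IsDiscreteValuationRing (R ⧸ Ideal.span {π}) := by
  have hloc : IsLocalRing (R ⧸ Ideal.span {π}) :=
    IsLocalRing.of_surjective' (Ideal.Quotient.mk (Ideal.span {π})) Ideal.Quotient.mk_surjective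
  refine { not_a_field' := ?_ }
  rw [maximalIdeal_quotient hmax]
  intro h0
  rw [Ideal.span_singleton_eq_bot, Ideal.Quotient.eq_zero_iff_mem, Ideal.mem_span_singleton] at h0
  exact hπτ h0

/-- `τ` is a uniformiser of `R ⧸ (π)`. -/
theorem irreducible_mk [hP : (Ideal.span {π}).IsPrime] (hπτ : ¬ π ∣ τ)
    [IsPrincipalIdealRing (R ⧸ Ideal.span {π})]
    (hmax : IsLocalRing.maximalIdeal R = Ideal.span {π, τ}) :
    Irreducible (Ideal.Quotient.mk (Ideal.span {π}) τ) := by
  have := isDiscreteValuationRing_quotient hπτ hmax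
  exact (IsDiscreteValuationRing.irreducible_iff_uniformizer _).mpr (maximalIdeal_quotient hmax)

end Pieces

section Main

variable {R : Type*} (K : Type*) {L : Type*} [CommRing R] [IsDomain R] [IsLocalRing R]
  [IsNoetherianRing R] [Field K] [Algebra R K] [IsFractionRing R K]
  [Field L] [Algebra K L] [Algebra R L] [IsScalarTower R K L] [FiniteDimensional K L]
  [Module.Free R (integralClosure R L)] [Module.Finite R (integralClosure R L)]

include K

/-- **The special fibre is regular at every closed point over a branch point** (statement over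
the local ring; uniform multiplier). -/
theorem exists_generator (π τ : R) (hπ : Prime π) (hτ : Prime τ) (hπτ : ¬ π ∣ τ)
    [IsPrincipalIdealRing (R ⧸ Ideal.span {π})]
    (hmax : IsLocalRing.maximalIdeal R = Ideal.span {π, τ})
    (hchar : ∀ n : ℕ, n ≠ 0 → ¬ τ ∣ (n : R))
    (hdisc : ∃ n : ℕ, Algebra.discr R (Module.Free.chooseBasis R (integralClosure R L)) ∣ τ ^ n)
    (M : Ideal (integralClosure R L)) (hM : M.IsMaximal) :
    ∃ θ ∈ M, ∃ s : integralClosure R L, s ∉ M ∧
      ∀ m ∈ M, s * m ∈ Ideal.span {algebraMap R (integralClosure R L) π, θ} := by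
  classical
  have hP : (Ideal.span {π}).IsPrime := (Ideal.span_singleton_prime hπ.ne_zero).mpr hπ
  have hQ : (Ideal.span {τ}).IsPrime := (Ideal.span_singleton_prime hτ.ne_zero).mpr hτ
  have hdvr : IsDiscreteValuationRing (R ⧸ Ideal.span {π}) :=
    isDiscreteValuationRing_quotient hπτ hmax
  have hunif : Irreducible (Ideal.Quotient.mk (Ideal.span {π}) τ) := irreducible_mk hπτ hmax
  have hπm : π ∈ IsLocalRing.maximalIdeal R := by
    rw [hmax]; exact Ideal.subset_span (by simp)
  obtain ⟨n, ε, hε, hd⟩ := exists_eq_unit_mul_pow hτ hdisc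
  have hic : IsIntegrallyClosed (integralClosure R L) :=
    integralClosure.isIntegrallyClosedOfFiniteExtension K
  have hnoeth : IsNoetherianRing (integralClosure R L) :=
    isNoetherian_of_tower R (isNoetherian_of_isNoetherianRing_of_finite R (integralClosure R L))
  exact Local.exists_generator_of_discr hπm hunif
    (Module.Free.chooseBasis R (integralClosure R L)) n ε hε hd
    (TameNormal.htame_of_normal (Module.Free.chooseBasis R (integralClosure R L)) hτ.ne_zero hQ
      (charZero_quotient hchar) n) M hM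

/-- The same in the vocabulary of `Model.RegNB`. -/
theorem regAt_local (π τ : R) (hπ : Prime π) (hτ : Prime τ) (hπτ : ¬ π ∣ τ)
    [IsPrincipalIdealRing (R ⧸ Ideal.span {π})]
    (hmax : IsLocalRing.maximalIdeal R = Ideal.span {π, τ})
    (hchar : ∀ n : ℕ, n ≠ 0 → ¬ τ ∣ (n : R))
    (hdisc : ∃ n : ℕ, Algebra.discr R (Module.Free.chooseBasis R (integralClosure R L)) ∣ τ ^ n)
    (M : Ideal (integralClosure R L)) (hM : M.IsMaximal) :
    RegNB.RegAt (algebraMap R (integralClosure R L) π) M := by
  obtain ⟨θ, hθ, s, hs, h⟩ :=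
    exists_generator K π τ hπ hτ hπτ hmax hchar hdisc M hM
  exact ⟨θ, hθ, fun m hm => ⟨s, hs, h m hm⟩⟩

end Main

end Fermat.Agent.S30.Normal.LocalReg
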