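import Mathlib
import Fermat.Agent.Lib.DetKer
import Fermat.Agent.Lib.UnitDisc

/-!
# A maximal-order criterion over a discrete valuation ring

Brick N5 of the "special fibre is normal" count (S30 model theorem, part (c)).

`W` a discrete valuation ring with uniformiser `t`, `D` a finite free `W`-algebra with basis `b`
whose discriminant is `unit * t ^ n`.  If `D` contains `n` elements which are nilpotent modulo `t`
and linearly independent modulo `t`, then `D` has no proper finite free over-order of the same
rank: every injective `W`-algebra map `D → D'` into a finite free `W`-algebra of the same rank is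
surjective (`surjective_of_discr`).

Auxiliary statements of independent use:

* `trace_eq_of_mul_eq_mul` : `M * A = A' * M`, `det M ≠ 0` over a domain ⇒ `tr A = tr A'`.
* `det_toMatrix_ne_zero` : the matrix of an injective linear map between free modules of the same
  finite rank over a domain has nonzero determinant.
* `trace_eq_trace_of_injective` : `Tr_{D/W} z = Tr_{D'/W} (i z)` for an injective algebra map
  between finite free algebras of the same rank over a domain.
* `discr_eq_det_sq_mul_discr` : `discr b = det(i) ^ 2 * discr b'`.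
* `dvd_trace_mul_of_dvd_pow` : nilpotent modulo `t` ⇒ all traces `Tr (y * z)` divisible by `t`.
-/

set_option autoImplicit false

namespace Fermat.Agent.S30.Normal.MaxOrder

open Matrix

section Domain

variable {W D D' ι : Type*} [CommRing W] [IsDomain W] [CommRing D] [Algebra W D] [CommRing D']
  [Algebra W D'] [Fintype ι] [DecidableEq ι]

/-- Over a domain, `M * A = A' * M` with `det M ≠ 0` implies `tr A = tr A'`. -/
theorem trace_eq_of_mul_eq_mul {A A' M : Matrix ι ι W} (hM : M.det ≠ 0) (h : M * A = A' * M) :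
    A.trace = A'.trace := by
  have h1 : M.det • A = M.adjugate * (A' * M) := by
    rw [← h, ← Matrix.mul_assoc, Matrix.adjugate_mul, Matrix.smul_mul, Matrix.one_mul]
  have h2 : (M.det • A).trace = (M.det • A').trace := by
    rw [h1, Matrix.trace_mul_comm, Matrix.mul_assoc, Matrix.mul_adjugate, Matrix.mul_smul,
      Matrix.mul_one]
  rw [Matrix.trace_smul, Matrix.trace_smul, smul_eq_mul, smul_eq_mul] at h2
  exact mul_left_cancel₀ hM h2

/-- The matrix of an injective linear map between free modules of the same finite rank over a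
domain has nonzero determinant. -/
theorem det_toMatrix_ne_zero (b : Module.Basis ι W D) (b' : Module.Basis ι W D')
    (f : D →ₗ[W] D') (hf : Function.Injective f) : (LinearMap.toMatrix b b' f).det ≠ 0 := by
  intro h0
  obtain ⟨v, hv, hMv⟩ := Matrix.exists_mulVec_eq_zero_iff.mpr h0
  apply hv
  have hrepr : ⇑(b.repr (b.equivFun.symm v)) = v := by
    rw [← Module.Basis.equivFun_apply, LinearEquiv.apply_symm_apply]
  have h1 : f (b.equivFun.symm v) = 0 := by
    apply b'.repr.injective
    apply DFunLike.coe_injective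
    rw [← LinearMap.toMatrix_mulVec_repr b b', hrepr, hMv]
    simp
  have h2 : b.equivFun.symm v = 0 := hf (by rw [h1, map_zero])
  rw [← hrepr, h2]
  simp

/-- For an injective algebra map between finite free algebras of the same rank over a domain, the
traces agree. -/
theorem trace_eq_trace_of_injective (b : Module.Basis ι W D) (b' : Module.Basis ι W D')
    (i : D →ₐ[W] D') (hi : Function.Injective i) (z : D) :
    Algebra.trace W D z = Algebra.trace W D' (i z) := by
  rw [Algebra.trace_eq_matrix_trace b, Algebra.trace_eq_matrix_trace b']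
  apply trace_eq_of_mul_eq_mul (M := LinearMap.toMatrix b b' i.toLinearMap)
    (det_toMatrix_ne_zero b b' _ hi)
  rw [Algebra.leftMulMatrix_apply, Algebra.leftMulMatrix_apply, ← LinearMap.toMatrix_comp,
    ← LinearMap.toMatrix_comp]
  congr 1
  ext d
  simp

/-- The discriminants of an order and of an over-order differ by the square of the index. -/
theorem discr_eq_det_sq_mul_discr (b : Module.Basis ι W D) (b' : Module.Basis ι W D')
    (i : D →ₐ[W] D') (hi : Function.Injective i) :
    Algebra.discr W b = (LinearMap.toMatrix b b' i.toLinearMap).det ^ 2 * Algebra.discr W b' := by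
  have h1 : Algebra.discr W b = Algebra.discr W (fun j => i (b j)) := by
    rw [Algebra.discr_def, Algebra.discr_def]
    congr 1
    ext j l
    rw [Algebra.traceMatrix_apply, Algebra.traceMatrix_apply, Algebra.traceForm_apply,
      Algebra.traceForm_apply, trace_eq_trace_of_injective b b' i hi, map_mul]
  have h2 : (fun j => i (b j)) =
      (⇑b' ᵥ* (LinearMap.toMatrix b b' i.toLinearMap).map (algebraMap W D')) := by
    ext l
    simp only [Matrix.vecMul, dotProduct, Matrix.map_apply, LinearMap.toMatrix_apply]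
    conv_lhs => rw [← b'.sum_repr (i (b l))]
    refine Finset.sum_congr rfl fun a _ => ?_
    rw [Algebra.smul_def, mul_comm]
    rfl
  rw [h1, h2, Algebra.discr_of_matrix_vecMul]

end Domain

section Nil

variable {W D ι : Type*} [CommRing W] [CommRing D] [Algebra W D] [Fintype ι] [DecidableEq ι]

/-- If `z` is nilpotent modulo `t` and `(t)` is a radical ideal, then `t ∣ Tr (y * z)` for all
`y`. -/
theorem dvd_trace_mul_of_dvd_pow (b : Module.Basis ι W D) {t : W}
    (hrad : (Ideal.span {t}).IsRadical) {z : D} {k : ℕ} (hz : algebraMap W D t ∣ z ^ k) (y : D) :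
    t ∣ Algebra.trace W D (y * z) := by
  rw [← Ideal.mem_span_singleton]
  apply Fermat.Agent.Lib.UnitDisc.trace_mem_of_pow_mem b hrad (n := k)
  rw [Ideal.map_span, Set.image_singleton, Ideal.mem_span_singleton, mul_pow]
  exact Dvd.dvd.mul_left hz _

omit [DecidableEq ι] in
/-- An element all of whose coordinates are divisible by `t` is divisible by `t`. -/
theorem dvd_of_forall_dvd_repr (b : Module.Basis ι W D) {t : W} {z : D}
    (h : ∀ a, t ∣ b.repr z a) : algebraMap W D t ∣ z := by
  choose w hw using h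
  refine ⟨∑ a, w a • b a, ?_⟩
  conv_lhs => rw [← b.sum_repr z]
  rw [Finset.mul_sum]
  refine Finset.sum_congr rfl fun a _ => ?_
  rw [hw a, mul_smul, Algebra.smul_def]

end Nil

/-- **Maximal-order criterion over a DVR.**  `D` finite free over the DVR `W` with discriminant
`unit * t ^ n`, and `n` elements of `D`, nilpotent modulo `t` and linearly independent modulo `t`.
Then `D` has no proper finite free over-order of the same rank. -/
theorem surjective_of_discr {W : Type*} [CommRing W] [IsDomain W] [IsDiscreteValuationRing W]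
    {t : W} (ht : Irreducible t)
    {D : Type*} [CommRing D] [Algebra W D] {ι : Type*} [Fintype ι] [DecidableEq ι]
    (b : Module.Basis ι W D) (n : ℕ) (ε : W) (hε : IsUnit ε)
    (hdisc : Algebra.discr W b = ε * t ^ n)
    (x : Fin n → D) (hnil : ∀ j, ∃ k : ℕ, algebraMap W D t ∣ x j ^ k)
    (hind : ∀ r : Fin n → W, algebraMap W D t ∣ ∑ j, r j • x j → ∀ j, t ∣ r j)
    {D' : Type*} [CommRing D'] [Algebra W D'] [Module.Free W D'] [Module.Finite W D']
    (i : D →ₐ[W] D') (hi : Function.Injective i)
    (hrank : Module.finrank W D' = Fintype.card ι) : Function.Surjective i := by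
  classical
  have hmaxeq : IsLocalRing.maximalIdeal W = Ideal.span {t} := ht.maximalIdeal_eq
  have hmax : (Ideal.span {t}).IsMaximal := hmaxeq ▸ IsLocalRing.maximalIdeal.isMaximal W
  have htp : Prime t := ht.prime
  have hrad : (Ideal.span {t}).IsRadical := hmax.isPrime.isRadical
  let _ : Field (W ⧸ Ideal.span {t}) := Ideal.Quotient.field _
  let b' : Module.Basis ι W D' :=
    (Module.finBasisOfFinrankEq W D' hrank).reindex (Fintype.equivFin ι).symm
  have hdiscr := discr_eq_det_sq_mul_discr b b' i hi
  have hqsurj : Function.Surjective (Ideal.Quotient.mk (Ideal.span {t})) :=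
    Ideal.Quotient.mk_surjective
  have hq0 : ∀ w : W, Ideal.Quotient.mk (Ideal.span {t}) w = 0 ↔ t ∣ w := fun w => by
    rw [Ideal.Quotient.eq_zero_iff_mem, Ideal.mem_span_singleton]
  -- abbreviations
  obtain ⟨M, hM⟩ : ∃ M, M = LinearMap.toMatrix b b' i.toLinearMap := ⟨_, rfl⟩
  obtain ⟨G', hG'⟩ : ∃ G', G' = Algebra.traceMatrix W b' := ⟨_, rfl⟩
  obtain ⟨Y, hY⟩ : ∃ Y : Matrix ι (Fin n) W, Y = fun a j => b.repr (x j) a := ⟨_, rfl⟩
  rw [← hM] at hdiscr
  obtain ⟨κ, hκ⟩ : ∃ κ, κ = Module.finrank (W ⧸ Ideal.span {t}) (LinearMap.ker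
    (Matrix.toLin' (M.map (Ideal.Quotient.mk (Ideal.span {t}))))) := ⟨_, rfl⟩
  obtain ⟨γ, hγ⟩ : ∃ γ, γ = Module.finrank (W ⧸ Ideal.span {t}) (LinearMap.ker
    (Matrix.toLin' (G'.map (Ideal.Quotient.mk (Ideal.span {t}))))) := ⟨_, rfl⟩
  have h1 : t ^ κ ∣ M.det := hκ ▸ Fermat.Agent.Lib.DetKer.pow_finrank_ker_dvd_det htp hmax M
  have h2 : t ^ γ ∣ Algebra.discr W b' := by
    rw [Algebra.discr_def, ← hG', hγ]
    exact Fermat.Agent.Lib.DetKer.pow_finrank_ker_dvd_det htp hmax G'
  have h3 : t ^ (2 * κ + γ) ∣ ε * t ^ n := by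
    rw [← hdisc, hdiscr, pow_add, pow_mul']
    exact mul_dvd_mul (pow_dvd_pow_of_dvd h1 2) h2
  have h4 : 2 * κ + γ ≤ n := by
    by_contra hlt
    rw [not_le] at hlt
    have h5 : t ^ (n + 1) ∣ ε * t ^ n := (pow_dvd_pow t hlt).trans h3
    rw [pow_succ, mul_comm ε] at h5
    have h6 : t ∣ ε := (mul_dvd_mul_iff_left (pow_ne_zero n ht.ne_zero)).mp h5
    exact ht.not_isUnit (isUnit_of_dvd_unit h6 hε)
  -- the reduced linear maps
  set A := Matrix.toLin' (M.map (Ideal.Quotient.mk (Ideal.span {t}))) with hA
  set Γ := Matrix.toLin' (G'.map (Ideal.Quotient.mk (Ideal.span {t}))) with hΓ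
  set Φ := Matrix.toLin' (Y.map (Ideal.Quotient.mk (Ideal.span {t}))) with hΦ
  -- `Φ` is injective
  have hΦinj : Function.Injective Φ := by
    rw [← LinearMap.ker_eq_bot, LinearMap.ker_eq_bot']
    intro rbar hr
    obtain ⟨r, rfl⟩ : ∃ r : Fin n → W, (fun j => Ideal.Quotient.mk (Ideal.span {t}) (r j)) = rbar :=
      ⟨fun j => (hqsurj (rbar j)).choose, funext fun j => (hqsurj (rbar j)).choose_spec⟩
    have hr' : ∀ a, t ∣ b.repr (∑ j, r j • x j) a := by
      intro a
      have h7 := congrFun hr a
      rw [hΦ, Matrix.toLin'_apply] at h7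
      simp only [Matrix.mulVec, dotProduct, Matrix.map_apply, Pi.zero_apply, ← map_mul,
        ← map_sum] at h7
      rw [hq0] at h7
      convert h7 using 1
      simp [hY, mul_comm]
    have h8 := hind r (dvd_of_forall_dvd_repr b hr')
    funext j
    exact (hq0 _).mpr (h8 j)
  -- the image of `A ∘ Φ` lies in the kernel of `Γ`
  have hGMY : ∀ a j, (G' * (M * Y)) a j = Algebra.trace W D' (b' a * i (x j)) := by
    intro a j
    have hMY : ∀ c, (M * Y) c j = b'.repr (i (x j)) c := by
      intro c
      have h9 := congrFun (LinearMap.toMatrix_mulVec_repr b b' i.toLinearMap (x j)) c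
      calc (M * Y) c j = (M *ᵥ ⇑(b.repr (x j))) c := by rw [hY]; rfl
        _ = b'.repr (i (x j)) c := by rw [hM]; exact h9
    rw [Matrix.mul_apply]
    conv_rhs => rw [← b'.sum_repr (i (x j)), Finset.mul_sum, map_sum]
    refine Finset.sum_congr rfl fun c _ => ?_
    rw [hMY c, hG', Algebra.traceMatrix_apply, Algebra.traceForm_apply, mul_smul_comm, map_smul,
      smul_eq_mul, mul_comm]
  have hGMY0 : (G' * (M * Y)).map (Ideal.Quotient.mk (Ideal.span {t})) = 0 := by
    ext a j
    rw [Matrix.map_apply, Matrix.zero_apply, hq0, hGMY]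
    obtain ⟨k, hk⟩ := hnil j
    refine dvd_trace_mul_of_dvd_pow b' hrad (k := k) ?_ (b' a)
    rw [← map_pow]
    obtain ⟨d, hd⟩ := hk
    exact ⟨i d, by rw [hd, map_mul, AlgHom.commutes]⟩
  have hrange : LinearMap.range (A ∘ₗ Φ) ≤ LinearMap.ker Γ := by
    rintro _ ⟨r, rfl⟩
    rw [LinearMap.mem_ker, LinearMap.comp_apply, hΓ, hA, hΦ, Matrix.toLin'_apply,
      Matrix.toLin'_apply, Matrix.toLin'_apply, Matrix.mulVec_mulVec, Matrix.mulVec_mulVec,
      ← Matrix.map_mul, ← Matrix.map_mul, Matrix.mul_assoc, hGMY0, Matrix.zero_mulVec]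
  have hker : Module.finrank (W ⧸ Ideal.span {t}) (LinearMap.ker (A ∘ₗ Φ)) ≤ κ := by
    rw [hκ, (Submodule.equivMapOfInjective Φ hΦinj (LinearMap.ker (A ∘ₗ Φ))).finrank_eq]
    apply Submodule.finrank_mono
    rw [LinearMap.ker_comp]
    exact Submodule.map_comap_le _ _
  have hcount : n ≤ κ + γ := by
    have h10 := (A ∘ₗ Φ).finrank_range_add_finrank_ker
    rw [Module.finrank_fin_fun] at h10
    have h11 : Module.finrank (W ⧸ Ideal.span {t}) (LinearMap.range (A ∘ₗ Φ)) ≤ γ := by
      rw [hγ]
      exact Submodule.finrank_mono hrange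
    omega
  have hκ0 : κ = 0 := by omega
  -- hence `M` is invertible
  have hdetbar : (M.map (Ideal.Quotient.mk (Ideal.span {t}))).det ≠ 0 := by
    intro h0
    obtain ⟨v, hv, hMv⟩ := Matrix.exists_mulVec_eq_zero_iff.mpr h0
    apply hv
    have hbot : LinearMap.ker A = ⊥ := Submodule.finrank_eq_zero.mp (hκ ▸ hκ0)
    have hvmem : v ∈ LinearMap.ker A := by
      rw [LinearMap.mem_ker, hA, Matrix.toLin'_apply, hMv]
    rw [hbot] at hvmem
    exact (Submodule.mem_bot _).mp hvmem
  have hunit : IsUnit M.det := by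
    rw [← IsLocalRing.notMem_maximalIdeal, hmaxeq, Ideal.mem_span_singleton, ← hq0,
      RingHom.map_det]
    exact hdetbar
  rw [hM] at hunit
  exact (LinearEquiv.ofIsUnitDet hunit).surjective

end Fermat.Agent.S30.Normal.MaxOrder
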