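import Mathlib
import Fermat.Agent.Lib.UnitDisc
import Fermat.Agent.S30.Model.DiscUnit

/-!
# A duality criterion for maximal orders (replaces the rank count N1 + N5 of `Normal/Plan.lean`)

`W` a domain, `t` a prime element, `D` a finite free `W`-algebra with basis `b` and Gram matrix
`G = (Tr b_i b_j)`.  Suppose there is a matrix `H` over `W` with `H * G = t • 1` (i.e. `t` times
the trace dual of `D` is contained in `D`; the rows of `H` are the coordinates of `t` times the
dual basis) and such that the elements `x_j = ∑_l H j l • b l` are nilpotent modulo `t`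
(i.e. `t • D^∨ ⊆ rad(t D)`).

* `surjective_of_dual` : then `D` has no proper finite free over-order of the same rank
  (every injective `W`-algebra map `D → D'` into a finite free algebra of the same rank is
  surjective).

Proof.  For `y ∈ D'` write `s y = i d` with `s ≠ 0`, `d = ∑ d_j b_j`.  Then
`t d_j = Tr_D (d x_j) = Tr_{D'} (i d · i x_j) = s · Tr_{D'} (y · i x_j)` and `y · i x_j` is
nilpotent modulo `t`, so its trace is divisible by `t`: hence `s ∣ d_j`.  No discriminant, no
rank count, no valuation: `W` need not be a DVR.
-/

set_option autoImplicit false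

namespace Fermat.Agent.S30.Normal.MaxOrderDual

open Matrix Fermat.Agent.Lib Fermat.Agent.S30.Model

variable {W : Type*} [CommRing W] [IsDomain W]

/-- Over a domain, `A * B = c • 1` with `c ≠ 0` implies `B * A = c • 1`. -/
theorem mul_comm_of_mul_eq_smul_one {ι : Type*} [Fintype ι] [DecidableEq ι]
    (A B : Matrix ι ι W) {c : W} (hc : c ≠ 0) (h : A * B = c • (1 : Matrix ι ι W)) :
    B * A = c • (1 : Matrix ι ι W) := by
  have hdet : A.det * B.det = c ^ Fintype.card ι := by
    rw [← Matrix.det_mul, h, Matrix.det_smul, Matrix.det_one, mul_one]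
  have hB : B.det ≠ 0 := by
    intro h0
    rw [h0, mul_zero] at hdet
    exact pow_ne_zero _ hc hdet.symm
  have h1 : (B * A - c • (1 : Matrix ι ι W)) * B = 0 := by
    rw [Matrix.sub_mul, Matrix.mul_assoc, h, Matrix.mul_smul, Matrix.smul_mul, Matrix.mul_one,
      Matrix.one_mul, sub_self]
  have h2 : B.det • (B * A - c • (1 : Matrix ι ι W)) = 0 := by
    have : (B * A - c • (1 : Matrix ι ι W)) * (B * B.adjugate) = 0 := by
      rw [← Matrix.mul_assoc, h1, Matrix.zero_mul]
    rwa [Matrix.mul_adjugate, Matrix.mul_smul, Matrix.mul_one] at this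
  have h3 : B * A - c • (1 : Matrix ι ι W) = 0 := by
    ext i j
    have := congrFun (congrFun h2 i) j
    simp only [Matrix.smul_apply, smul_eq_mul, Matrix.zero_apply] at this
    rcases mul_eq_zero.mp this with h4 | h4
    · exact absurd h4 hB
    · simpa using h4
  exact sub_eq_zero.mp h3

/-- The trace is compatible with an injective algebra map between finite free algebras of the
same rank. -/
theorem trace_eq_of_injective {D D' : Type*} [CommRing D] [CommRing D'] [Algebra W D]
    [Algebra W D'] {ι : Type*} [Fintype ι] [DecidableEq ι]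
    (b : Module.Basis ι W D) (b' : Module.Basis ι W D') (i : D →ₐ[W] D')
    (hi : Function.Injective i) (z : D) :
    Algebra.trace W D' (i z) = Algebra.trace W D z := by
  set P : Matrix ι ι W := LinearMap.toMatrix b b' i.toLinearMap with hP
  set A : Matrix ι ι W := Algebra.leftMulMatrix b z with hA
  set A' : Matrix ι ι W := Algebra.leftMulMatrix b' (i z) with hA'
  have hcomm : P * A = A' * P := by
    rw [hP, hA, hA', Algebra.leftMulMatrix_apply, Algebra.leftMulMatrix_apply,
      ← LinearMap.toMatrix_comp, ← LinearMap.toMatrix_comp]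
    congr 1
    ext x
    simp
  have hdet : P.det ≠ 0 := by
    intro h0
    obtain ⟨v, hv, hPv⟩ := Matrix.exists_mulVec_eq_zero_iff.mpr h0
    apply hv
    have h1 : i (b.equivFun.symm v) = 0 := by
      have h2 : b'.repr (i.toLinearMap (b.equivFun.symm v)) = 0 := by
        ext k
        have h3 := LinearMap.toMatrix_mulVec_repr b b' i.toLinearMap (b.equivFun.symm v)
        have h4 : (b.repr (b.equivFun.symm v) : ι → W) = v := by
          have := b.equivFun.apply_symm_apply v
          exact this
        rw [h4, ← hP, hPv] at h3
        have := congrFun h3 k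
        simpa using this.symm
      have h5 := b'.repr.injective (h2.trans (map_zero _).symm)
      exact h5
    have h6 : b.equivFun.symm v = 0 := hi (h1.trans (map_zero i).symm)
    have := congrArg b.equivFun h6
    rwa [LinearEquiv.apply_symm_apply, map_zero] at this
  rw [Algebra.trace_eq_matrix_trace b', Algebra.trace_eq_matrix_trace b]
  have h1 : P.det * A.trace = P.det * A'.trace := by
    calc P.det * A.trace = (P.det • A).trace := by rw [Matrix.trace_smul, smul_eq_mul]
      _ = (P.adjugate * P * A).trace := by
          rw [Matrix.adjugate_mul, Matrix.smul_mul, Matrix.one_mul]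
      _ = (P.adjugate * (A' * P)).trace := by rw [Matrix.mul_assoc, hcomm]
      _ = (A' * P * P.adjugate).trace := by rw [Matrix.trace_mul_comm]
      _ = (P.det • A').trace := by
          rw [Matrix.mul_assoc, Matrix.mul_adjugate, Matrix.mul_smul, Matrix.mul_one]
      _ = P.det * A'.trace := by rw [Matrix.trace_smul, smul_eq_mul]
  exact (mul_left_cancel₀ hdet h1).symm

/-- **Duality criterion for maximal orders.** -/
theorem surjective_of_dual {t : W} (ht : Prime t)
    {D : Type*} [CommRing D] [Algebra W D] {ι : Type*} [Fintype ι] [DecidableEq ι]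
    (b : Module.Basis ι W D) (H : Matrix ι ι W)
    (hHG : H * Algebra.traceMatrix W b = t • (1 : Matrix ι ι W))
    (hnil : ∀ j, ∃ k : ℕ, algebraMap W D t ∣ (∑ l, H j l • b l) ^ k)
    {D' : Type*} [CommRing D'] [Algebra W D'] [Module.Free W D'] [Module.Finite W D']
    (i : D →ₐ[W] D') (hi : Function.Injective i)
    (hrank : Module.finrank W D' = Fintype.card ι) : Function.Surjective i := by
  classical
  -- a basis of `D'` indexed by `ι`
  have hcard : Fintype.card (Module.Free.ChooseBasisIndex W D') = Fintype.card ι := by
    rw [← hrank, Module.finrank_eq_card_chooseBasisIndex]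
  let e : Module.Free.ChooseBasisIndex W D' ≃ ι := Fintype.equivOfCardEq hcard
  let b' : Module.Basis ι W D' := (Module.Free.chooseBasis W D').reindex e
  have hIrad : (Ideal.span {t}).IsRadical :=
    ((Ideal.span_singleton_prime ht.ne_zero).mpr ht).isRadical
  intro y
  -- `s • y = i d` with `s ≠ 0`
  obtain ⟨s, hs, d, hd⟩ : ∃ s : W, s ≠ 0 ∧ ∃ d : D, s • y = i d := by
    let v : Option ι → D' := fun o => o.elim y (fun j => i (b j))
    have hnot : ¬ LinearIndependent W v := by
      intro hli
      have h1 := hli.fintype_card_le_finrank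
      rw [hrank, Fintype.card_option] at h1
      omega
    obtain ⟨g, hg, o, ho⟩ := Fintype.not_linearIndependent_iff.mp hnot
    rw [Fintype.sum_option] at hg
    have hg' : g none • y = i (-∑ j, g (some j) • b j) := by
      rw [map_neg, map_sum]
      simp only [map_smul]
      exact eq_neg_of_add_eq_zero_left hg
    by_cases h0 : g none = 0
    · exfalso
      rw [h0, zero_smul] at hg'
      have h2 : -∑ j, g (some j) • b j = 0 := hi (hg'.symm.trans (map_zero i).symm)
      have h3 : ∑ j, g (some j) • b j = 0 := neg_eq_zero.mp h2
      have h4 := Fintype.linearIndependent_iff.mp b.linearIndependent (fun j => g (some j)) h3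
      cases o with
      | none => exact ho h0
      | some j => exact ho (h4 j)
    · exact ⟨g none, h0, _, hg'⟩
  -- the key divisibility
  have key : ∀ j, ∃ w : W, b.repr d j = s * w := by
    intro j
    set x : D := ∑ l, H j l • b l with hx
    have h1 : Algebra.trace W D (d * x) = t * b.repr d j := by
      rw [hx, Finset.mul_sum, map_sum]
      have h2 : ∀ l, Algebra.trace W D (d * H j l • b l) =
          H j l * (Algebra.traceMatrix W b *ᵥ (b.repr d)) l := by
        intro l
        rw [mul_smul_comm, map_smul, smul_eq_mul, DiscUnit.trace_mul_basis]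
      rw [Finset.sum_congr rfl fun l _ => h2 l]
      have h3 : ∑ l, H j l * (Algebra.traceMatrix W b *ᵥ (b.repr d)) l =
          ((H * Algebra.traceMatrix W b) *ᵥ (b.repr d)) j := by
        rw [← Matrix.mulVec_mulVec]
        rfl
      rw [h3, hHG, Matrix.smul_mulVec, Matrix.one_mulVec]
      rfl
    have h4 : Algebra.trace W D (d * x) = s * Algebra.trace W D' (y * i x) := by
      rw [← trace_eq_of_injective b b' i hi, map_mul, ← hd, smul_mul_assoc, map_smul,
        smul_eq_mul]
    obtain ⟨k, hk⟩ := hnil j
    have h5 : Algebra.trace W D' (y * i x) ∈ Ideal.span {t} := by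
      apply UnitDisc.trace_mem_of_pow_mem b' hIrad (n := k)
      rw [mul_pow, ← map_pow, Ideal.map_span, Set.image_singleton, Ideal.mem_span_singleton]
      obtain ⟨c, hc⟩ := hk
      refine ⟨y ^ k * i c, ?_⟩
      rw [← hx] at hc
      rw [hc, map_mul, AlgHom.commutes]
      ring
    obtain ⟨w, hw⟩ := Ideal.mem_span_singleton.mp h5
    refine ⟨w, ?_⟩
    have h6 : t * b.repr d j = t * (s * w) := by
      rw [← h1, h4, hw]; ring
    exact mul_left_cancel₀ ht.ne_zero h6
  choose w hw using key
  refine ⟨∑ j, w j • b j, ?_⟩
  have h7 : s • i (∑ j, w j • b j) = s • y := by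
    rw [hd, ← map_smul]
    congr 1
    rw [← b.sum_repr d, Finset.smul_sum]
    refine Finset.sum_congr rfl fun j _ => ?_
    rw [hw j, smul_smul]
  have hinj : Function.Injective (fun z : D' => s • z) := by
    intro z₁ z₂ h
    have h8 : s • (z₁ - z₂) = 0 := by rw [smul_sub]; exact sub_eq_zero.mpr h
    have h9 : (Module.Free.chooseBasis W D').repr (z₁ - z₂) = 0 := by
      ext k
      have := congrArg (fun z => (Module.Free.chooseBasis W D').repr z k) h8
      simp only [map_smul, Finsupp.smul_apply, smul_eq_mul, map_zero, Finsupp.zero_apply] at this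
      rcases mul_eq_zero.mp this with h | h
      · exact absurd h hs
      · simpa using h
    have h10 : z₁ - z₂ = 0 :=
      (Module.Free.chooseBasis W D').repr.injective (h9.trans (map_zero _).symm)
    exact sub_eq_zero.mp h10
  exact hinj h7

/-- The same with the hypothesis in the order `G * H = t • 1`. -/
theorem surjective_of_dual' {t : W} (ht : Prime t)
    {D : Type*} [CommRing D] [Algebra W D] {ι : Type*} [Fintype ι] [DecidableEq ι]
    (b : Module.Basis ι W D) (H : Matrix ι ι W)
    (hGH : Algebra.traceMatrix W b * H = t • (1 : Matrix ι ι W))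
    (hnil : ∀ j, ∃ k : ℕ, algebraMap W D t ∣ (∑ l, H j l • b l) ^ k)
    {D' : Type*} [CommRing D'] [Algebra W D'] [Module.Free W D'] [Module.Finite W D']
    (i : D →ₐ[W] D') (hi : Function.Injective i)
    (hrank : Module.finrank W D' = Fintype.card ι) : Function.Surjective i :=
  surjective_of_dual ht b H (mul_comm_of_mul_eq_smul_one _ _ ht.ne_zero hGH) hnil i hi hrank

end Fermat.Agent.S30.Normal.MaxOrderDual
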