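import Mathlib

/-!
# NORMALITY OF THE SPECIAL FIBRE (Model theorem, part (c)) — PLAN (frozen statements)

Owner: helper234.  Route: discriminant count (helper137's #1709, streamlined); NO Abhyankar,
NO base change, NO tameness hypothesis, NO descent.

Mathematical content.  `R` a two-dimensional regular local ring with parameters `π, t`
(`R = O[u]_x`, `t = u - c`), `C` its integral closure in a finite extension `L` of `Frac R`
(finite free over `R`, basis `b`, Gram matrix `G = (Tr b_i b_j)`), `det G = unit * t ^ n`
(`L` is unramified over `R` outside `t = 0`).  Then `C / π C` is a normal ring: every maximal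
ideal `M` of `C` is generated, locally at `M`, by `π` and one more element.

Chain of bricks (each row is Mathlib-only unless stated; real proofs go to the files named below
and must NOT import this file):

* `DetKer.pow_finrank_ker_dvd_det`   (row N1, `Fermat/Agent/Lib/DetKer.lean`)
* `TameDual.dvd_of_sq_dvd_trace`     (row N3, `Fermat/Agent/S30/Normal/TameDual.lean`;
                                      may import `Fermat.Agent.Lib.TraceNil`)
* `MaxOrder.surjective_of_discr`     (row N5, `Fermat/Agent/S30/Normal/MaxOrder.lean`;
                                      may import `Lib.DetKer`, `Lib.UnitDisc`)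
* `LocalGen.exists_local_generator`  (row N5b, `Fermat/Agent/S30/Normal/LocalGen.lean`)
* `Local.exists_generator_of_discr`  (row N6, helper234, `Fermat/Agent/S30/Normal/Local.lean`)
* glue to `S30/Model/Main.lean` hypotheses = `main_c`  (row N7, helper234)
-/

set_option autoImplicit false

namespace Fermat.Agent.S30.Normal.Plan

/-! ### N1.  A matrix over `W` whose reduction modulo the prime `t` has a `c`-dimensional kernel
has determinant divisible by `t ^ c`. -/

theorem pow_finrank_ker_dvd_det {W ι : Type*} [CommRing W] [Fintype ι] [DecidableEq ι]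
    {t : W} (ht : Prime t) (hmax : (Ideal.span {t}).IsMaximal) (M : Matrix ι ι W) :
    t ^ Module.finrank (W ⧸ Ideal.span {t})
        (LinearMap.ker (Matrix.toLin' (M.map (Ideal.Quotient.mk (Ideal.span {t}))))) ∣ M.det := by
  sorry

/-! ### N3.  Tameness in residue characteristic zero, trace form.
`B` a Dedekind domain, finite free over the domain `V`; `t` a prime element of `V` with `V / t` of
characteristic zero.  If `t ^ 2 ∣ Tr(y z)` for all `z`, then `t ∣ y`.
(Proof: `Lib.TraceNil.exists_pow_eq_smul_of_trace_dvd` + `Ideal.sup_mul_inf`.) -/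

theorem dvd_of_sq_dvd_trace {V B : Type*} [CommRing V] [IsDomain V] [CommRing B] [IsDomain B]
    [IsDedekindDomain B] [Algebra V B] [Module.Free V B] [Module.Finite V B]
    {t : V} (ht : Prime t) [CharZero (V ⧸ Ideal.span {t})]
    (y : B) (hy : ∀ z : B, t ^ 2 ∣ Algebra.trace V B (y * z)) :
    algebraMap V B t ∣ y := by
  sorry

/-! ### N5.  Maximal-order criterion over a DVR.
`D` finite free over the DVR `W` with discriminant `unit * t ^ n`, and `n` elements of `D`,
nilpotent modulo `t` and linearly independent modulo `t`.  Then `D` has no proper finite free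
over-order of the same rank. -/

theorem surjective_of_discr {W : Type*} [CommRing W] [IsDomain W] [IsDiscreteValuationRing W]
    {t : W} (ht : Irreducible t)
    {D : Type*} [CommRing D] [Algebra W D] {ι : Type*} [Fintype ι] [DecidableEq ι]
    (b : Module.Basis ι W D) (n : ℕ) (ε : W) (hε : IsUnit ε)
    (hdisc : Algebra.discr W b = ε * t ^ n)
    (x : Fin n → D) (hnil : ∀ j, ∃ k : ℕ, algebraMap W D t ∣ x j ^ k)
    (hind : ∀ r : Fin n → W, algebraMap W D t ∣ ∑ j, r j • x j → ∀ j, t ∣ r j)
    {D' : Type*} [CommRing D'] [Algebra W D'] [Module.Free W D'] [Module.Finite W D']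
    (i : D →ₐ[W] D') (hi : Function.Injective i)
    (hrank : Module.finrank W D' = Fintype.card ι) : Function.Surjective i := by
  sorry

/-! ### N5b.  A maximal order over a DVR is locally principal at every maximal ideal. -/

universe u

theorem exists_local_generator {W : Type*} [CommRing W] [IsDomain W] [IsDiscreteValuationRing W]
    {D : Type u} [CommRing D] [Algebra W D] [Module.Free W D] [Module.Finite W D]
    (hmax : ∀ (D' : Type u) [CommRing D'] [Algebra W D'] [Module.Free W D'] [Module.Finite W D']
      (i : D →ₐ[W] D'), Function.Injective i → Module.finrank W D' = Module.finrank W D →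
      Function.Surjective i)
    (𝔫 : Ideal D) (h𝔫 : 𝔫.IsMaximal) :
    ∃ τ ∈ 𝔫, ∃ s : D, s ∉ 𝔫 ∧ ∀ m ∈ 𝔫, s * m ∈ Ideal.span {τ} := by
  sorry

/-! ### N6.  The local theorem (helper234). -/

theorem exists_generator_of_discr
    {R : Type*} [CommRing R] [IsDomain R] [IsLocalRing R]
    {π t : R} [IsDomain (R ⧸ Ideal.span {π})] [IsDiscreteValuationRing (R ⧸ Ideal.span {π})]
    (hπ : π ∈ IsLocalRing.maximalIdeal R)
    (hunif : Irreducible (Ideal.Quotient.mk (Ideal.span {π}) t))
    {C : Type*} [CommRing C] [Algebra R C] {ι : Type*} [Fintype ι] [DecidableEq ι]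
    (b : Module.Basis ι R C)
    (n : ℕ) (ε : R) (hε : IsUnit ε) (hdisc : Algebra.discr R b = ε * t ^ n)
    (htame : 0 < n → (Ideal.span {t}).IsPrime ∧ CharZero (R ⧸ Ideal.span {t}) ∧
       ∀ y : C, (∀ z : C, t ^ 2 ∣ Algebra.trace R C (y * z)) → algebraMap R C t ∣ y)
    (M : Ideal C) (hM : M.IsMaximal) :
    ∃ τ ∈ M, ∃ s : C, s ∉ M ∧ ∀ m ∈ M, s * m ∈ Ideal.span {algebraMap R C π, τ} := by
  sorry

end Fermat.Agent.S30.Normal.Plan
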