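import Mathlib
import Fermat.Agent.S30.Normal.TameDual
import Fermat.Agent.S30.Normal.MaxOrder
import Fermat.Agent.S30.Model.DiscUnit

/-!
# Tameness in residue characteristic zero for a free integral closure (no Dedekind hypothesis)

`R` a Noetherian integrally closed domain (e.g. the two-dimensional regular local ring `O[u]_x`),
`K = Frac R`, `L / K` finite separable, `C` the integral closure of `R` in `L`, assumed finite free
over `R`; `s` a prime element of `R` with `R ⧸ (s)` of characteristic zero.

* `dvd_of_sq_dvd_trace_of_free` : if `s ^ 2 ∣ Tr_{C/R}(y z)` for all `z : C`, then `s ∣ y` in `C`.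

This is the hypothesis `htame` of `S30/Normal/Plan.lean`, row N6.  Proof: apply
`TameDual.dvd_of_sq_dvd_trace` to the discrete valuation ring `V = R_(s)` and the (Dedekind, free)
integral closure of `V` in `L`, and descend by coordinates in a basis of `C` over `R`.
-/

set_option autoImplicit false

namespace Fermat.Agent.S30.Normal.TameFree

open Fermat.Agent.S30.Model

/-- The localisation of a Noetherian domain at a principal prime ideal is a principal ideal
ring. -/
theorem isPrincipalIdealRing_of_atPrime_span {R : Type*} [CommRing R] [IsDomain R]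
    [IsNoetherianRing R] (s : R) [(Ideal.span {s}).IsPrime]
    (V : Type*) [CommRing V] [Algebra R V] [IsLocalization.AtPrime V (Ideal.span {s})] :
    IsPrincipalIdealRing V := by
  have : IsDomain V := IsLocalization.isDomain_of_atPrime V (Ideal.span {s})
  have : IsLocalRing V := IsLocalization.AtPrime.isLocalRing V (Ideal.span {s})
  have : IsNoetherianRing V :=
    IsLocalization.isNoetherianRing (Ideal.span {s}).primeCompl V inferInstance
  have hmax : IsLocalRing.maximalIdeal V = Ideal.span {algebraMap R V s} := by
    rw [← IsLocalization.AtPrime.map_eq_maximalIdeal (Ideal.span {s}) V, Ideal.map_span,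
      Set.image_singleton]
  have hprin : (IsLocalRing.maximalIdeal V).IsPrincipal := ⟨⟨_, hmax⟩⟩
  exact ((tfae_of_isNoetherianRing_of_isLocalRing_of_isDomain (R := V)).out 4 0).mp hprin

/-- Characteristic zero passes from `R ⧸ (s)` to the localisation at `(s)` modulo `s`. -/
theorem charZero_quotient_of_atPrime_span {R : Type*} [CommRing R] (s : R)
    [hP : (Ideal.span {s}).IsPrime] [CharZero (R ⧸ Ideal.span {s})]
    (V : Type*) [CommRing V] [Algebra R V] [IsLocalization.AtPrime V (Ideal.span {s})] :
    CharZero (V ⧸ Ideal.span {algebraMap R V s}) := by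
  have hdisj : Disjoint ((Ideal.span {s}).primeCompl : Set R) (Ideal.span {s} : Set R) := by
    rw [Set.disjoint_left]
    intro a ha ha'
    exact ha ha'
  have hcomap : (Ideal.span {algebraMap R V s}).comap (algebraMap R V) = Ideal.span {s} := by
    have h1 := IsLocalization.under_map_of_isPrime_disjoint (Ideal.span {s}).primeCompl V hP hdisj
    rw [Ideal.map_span, Set.image_singleton] at h1
    exact h1
  have hle : Ideal.span {s} ≤ (Ideal.span {algebraMap R V s}).comap (algebraMap R V) :=
    hcomap.symm.le
  have hinj : Function.Injective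
      (Ideal.quotientMap (Ideal.span {algebraMap R V s}) (algebraMap R V) hle) :=
    Ideal.quotientMap_injective' hcomap.le
  exact charZero_of_injective_ringHom hinj

section Main

/-- **Tameness in residue characteristic zero** for the (free) integral closure `C` of `R` in
`L`: if `s ^ 2 ∣ Tr(y z)` for all `z`, then `s ∣ y`. -/
theorem dvd_of_sq_dvd_trace_of_free {R : Type*} (K L : Type*) {C : Type*} [CommRing R]
    [IsDomain R] [IsNoetherianRing R] [IsIntegrallyClosed R]
    [Field K] [Algebra R K] [IsFractionRing R K] [Field L] [Algebra K L] [Algebra R L]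
    [IsScalarTower R K L] [FiniteDimensional K L] [Algebra.IsSeparable K L]
    [CommRing C] [Algebra R C] [Algebra C L] [IsScalarTower R C L] [IsIntegralClosure C R L]
    [Module.Free R C] [Module.Finite R C]
    {s : R} (hs : Prime s) [CharZero (R ⧸ Ideal.span {s})]
    (y : C) (hy : ∀ z : C, s ^ 2 ∣ Algebra.trace R C (y * z)) : algebraMap R C s ∣ y := by
  classical
  have hP : (Ideal.span {s}).IsPrime := (Ideal.span_singleton_prime hs.ne_zero).mpr hs
  have hinjK : Function.Injective (algebraMap R K) := IsFractionRing.injective R K
  have hinjL : Function.Injective (algebraMap R L) := by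
    rw [IsScalarTower.algebraMap_eq R K L]
    exact (algebraMap K L).injective.comp hinjK
  have hunitK : ∀ d : (Ideal.span {s}).primeCompl, IsUnit (algebraMap R K d) := fun d =>
    IsUnit.mk0 _ ((map_ne_zero_iff _ hinjK).mpr (fun h0 => d.2 (h0 ▸ (Ideal.span {s}).zero_mem)))
  let V := Localization.AtPrime (Ideal.span {s})
  let algVK : Algebra V K := (IsLocalization.lift (M := (Ideal.span {s}).primeCompl) hunitK).toAlgebra
  have towerRVK : IsScalarTower R V K := IsScalarTower.of_algebraMap_eq fun a => by
    simp [RingHom.algebraMap_toAlgebra, V]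
  have fracV : IsFractionRing V K :=
    IsFractionRing.isFractionRing_of_isDomain_of_isLocalization (Ideal.span {s}).primeCompl V K
  let algVL : Algebra V L := ((algebraMap K L).comp (algebraMap V K)).toAlgebra
  have towerVKL : IsScalarTower V K L := IsScalarTower.of_algebraMap_eq fun a => rfl
  have towerRVL : IsScalarTower R V L := IsScalarTower.of_algebraMap_eq fun a => by
    rw [RingHom.algebraMap_toAlgebra, RingHom.comp_apply, ← IsScalarTower.algebraMap_apply R V K,
      ← IsScalarTower.algebraMap_apply R K L]
  have domV : IsDomain V := IsLocalization.isDomain_of_atPrime V (Ideal.span {s})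
  have noethV : IsNoetherianRing V :=
    IsLocalization.isNoetherianRing (Ideal.span {s}).primeCompl V inferInstance
  have pidV : IsPrincipalIdealRing V := isPrincipalIdealRing_of_atPrime_span s V
  have charV : CharZero (V ⧸ Ideal.span {algebraMap R V s}) :=
    charZero_quotient_of_atPrime_span s V
  have hinjVK : Function.Injective (algebraMap V K) := IsFractionRing.injective V K
  have hs' : Prime (algebraMap R V s) := by
    have hdisj : Disjoint ((Ideal.span {s}).primeCompl : Set R) (Ideal.span {s} : Set R) := by
      rw [Set.disjoint_left]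
      intro a ha ha'
      exact ha ha'
    have h1 : ((Ideal.span {s}).map (algebraMap R V)).IsPrime :=
      IsLocalization.isPrime_of_isPrime_disjoint (Ideal.span {s}).primeCompl V _ hP hdisj
    rw [Ideal.map_span, Set.image_singleton] at h1
    have hne : algebraMap R V s ≠ 0 := by
      intro h0
      apply hs.ne_zero
      apply hinjK
      rw [IsScalarTower.algebraMap_apply R V K, h0, map_zero, map_zero]
    exact (Ideal.span_singleton_prime hne).mp h1
  -- the integral closure of `V` in `L`
  let B := integralClosure V L
  have dedB : IsDedekindDomain B := integralClosure.isDedekindDomain V K L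
  have finB : Module.Finite V B := IsIntegralClosure.finite V K L B
  have tfVL : Module.IsTorsionFree V L := by
    have : FaithfulSMul V L := (faithfulSMul_iff_algebraMap_injective V L).mpr
      ((algebraMap K L).injective.comp hinjVK)
    infer_instance
  have freeB : Module.Free V B := IsIntegralClosure.module_free V K L B
  have locB : IsLocalization (Algebra.algebraMapSubmonoid B (nonZeroDivisors V)) L :=
    IsIntegralClosure.isLocalization V K L B
  have locC : IsLocalization (Algebra.algebraMapSubmonoid C (nonZeroDivisors R)) L :=
    IsIntegralClosure.isLocalization R K L C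
  -- the element `y` in `B`
  have hyint : IsIntegral V (algebraMap C L y) :=
    IsIntegral.tower_top ((IsIntegralClosure.isIntegral_iff (R := R) (A := C)).mpr ⟨y, rfl⟩)
  let y1 : B := ⟨algebraMap C L y, hyint⟩
  have key : ∀ z1 : B, algebraMap R V s ^ 2 ∣ Algebra.trace V B (y1 * z1) := by
    intro z1
    obtain ⟨⟨d, hd⟩, hdz⟩ := IsIntegral.exists_multiple_integral_of_isLocalization
      (Ideal.span {s}).primeCompl (z1 : L) z1.2
    rw [Submonoid.smul_def, Algebra.smul_def] at hdz
    obtain ⟨z0, hz0⟩ := (IsIntegralClosure.isIntegral_iff (A := C)).mp hdz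
    obtain ⟨r, hr⟩ := hy z0
    have hdu : IsUnit (algebraMap R V d) :=
      IsLocalization.map_units V (⟨d, hd⟩ : (Ideal.span {s}).primeCompl)
    obtain ⟨u, hu⟩ := hdu
    refine ⟨(↑u⁻¹ : V) * algebraMap R V r, ?_⟩
    apply hinjVK
    have h1 : algebraMap V K (Algebra.trace V B (y1 * z1)) =
        Algebra.trace K L (algebraMap C L y * (z1 : L)) :=
      DiscUnit.algebraMap_trace_eq (R := V) (C := B) (K := K) (L := L) (y1 * z1)
    have h2 : algebraMap R K (Algebra.trace R C (y * z0)) =
        algebraMap R K d * Algebra.trace K L (algebraMap C L y * (z1 : L)) := by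
      rw [DiscUnit.algebraMap_trace_eq (R := R) (C := C) (K := K) (L := L) (y * z0), map_mul, hz0,
        mul_left_comm, IsScalarTower.algebraMap_apply R K L, ← Algebra.smul_def, map_smul,
        smul_eq_mul]
    rw [hr, map_mul, map_pow] at h2
    have hd0 : algebraMap R K d ≠ 0 := (hunitK ⟨d, hd⟩).ne_zero
    have h3 : algebraMap V K (↑u⁻¹ : V) * algebraMap R K d = 1 := by
      rw [IsScalarTower.algebraMap_apply R V K, ← map_mul, ← hu, Units.inv_mul, map_one]
    have hRHS : algebraMap V K (algebraMap R V s ^ 2 * ((↑u⁻¹ : V) * algebraMap R V r)) =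
        algebraMap R K s ^ 2 * (algebraMap V K (↑u⁻¹ : V) * algebraMap R K r) := by
      rw [map_mul, map_pow, map_mul, ← IsScalarTower.algebraMap_apply R V K,
        ← IsScalarTower.algebraMap_apply R V K]
    rw [h1, hRHS]
    calc Algebra.trace K L (algebraMap C L y * (z1 : L))
        = (algebraMap V K (↑u⁻¹ : V) * algebraMap R K d) *
            Algebra.trace K L (algebraMap C L y * (z1 : L)) := by rw [h3, one_mul]
      _ = algebraMap V K (↑u⁻¹ : V) * (algebraMap R K s ^ 2 * algebraMap R K r) := by
          rw [mul_assoc, ← h2]
      _ = algebraMap R K s ^ 2 * (algebraMap V K (↑u⁻¹ : V) * algebraMap R K r) := by ring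
  obtain ⟨w1, hw1⟩ := TameDual.dvd_of_sq_dvd_trace hs' y1 key
  -- descend
  obtain ⟨⟨d, hd⟩, hdw⟩ := IsIntegral.exists_multiple_integral_of_isLocalization
    (Ideal.span {s}).primeCompl (w1 : L) w1.2
  rw [Submonoid.smul_def, Algebra.smul_def] at hdw
  obtain ⟨w0, hw0⟩ := (IsIntegralClosure.isIntegral_iff (A := C)).mp hdw
  have hL : algebraMap C L y = algebraMap R L s * (w1 : L) := by
    have h1 := congrArg (fun c : B => (c : L)) hw1
    simp only [Subalgebra.coe_mul] at h1
    rw [show (y1 : L) = algebraMap C L y from rfl] at h1
    rw [h1, IsScalarTower.algebraMap_apply R V L]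
    rfl
  have hC : d • y = s • w0 := by
    apply IsIntegralClosure.algebraMap_injective C R L
    rw [Algebra.smul_def, Algebra.smul_def, map_mul, map_mul,
      ← IsScalarTower.algebraMap_apply R C L, ← IsScalarTower.algebraMap_apply R C L, hL, hw0]
    ring
  let b := Module.Free.chooseBasis R C
  apply MaxOrder.dvd_of_forall_dvd_repr b
  intro a
  have h1 : d * b.repr y a = s * b.repr w0 a := by
    have h2 := congrArg (fun c => b.repr c a) hC
    simpa using h2
  have h3 : s ∣ d * b.repr y a := ⟨_, h1⟩
  rcases hs.dvd_or_dvd h3 with h4 | h4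
  · exact absurd (Ideal.mem_span_singleton.mpr h4) hd
  · exact h4

end Main

end Fermat.Agent.S30.Normal.TameFree
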